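import Fermat.Agent.ConstReduction.RatVal
import Mathlib.RingTheory.TensorProduct.Maps
import Mathlib.RingTheory.TensorProduct.Free

/-!
# The Gauss valuation of an extension of scalars

A valuation ring of `F` with residue field `Ω` extends to the Gauss valuation of the extension of
scalars `L = F(K)` of a field `K/Ω`; its residue field is `K`.
-/

set_option autoImplicit false

noncomputable section

open IntermediateField Polynomial TensorProduct

namespace Fermat.Agent.ConstReduction

/-- `L` is the field of fractions of `F ⊗[Ω] K`. -/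
class IsConstExt (Ω K F L : Type*) [Field Ω] [Field K] [Field F] [Field L] [Algebra Ω K]
    [Algebra F L] [Algebra K L] : Prop where
  linearIndependent : ∀ (n : ℕ) (e : Fin n → K), LinearIndependent Ω e →
    LinearIndependent F fun i => algebraMap K L (e i)
  adjoin_eq_top : IntermediateField.adjoin F (Set.range (algebraMap K L)) = ⊤

section

variable {Ω K F L : Type*} [Field Ω] [Field K] [Field F] [Field L] [Algebra Ω K] [Algebra Ω F]
  [Algebra Ω L] [Algebra F L] [Algebra K L] [IsScalarTower Ω F L] [IsScalarTower Ω K L]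

omit [Algebra Ω F] [Algebra Ω L] [IsScalarTower Ω F L] [IsScalarTower Ω K L] in
/-- `Ω`-independent elements of `K` stay independent over `F` in `L`. -/
theorem linearIndependent_image [IsConstExt Ω K F L] {ι : Type*} {e : ι → K}
    (he : LinearIndependent Ω e) : LinearIndependent F fun i => algebraMap K L (e i) := by
  rw [linearIndependent_iff']
  intro s g hg i hi
  have h := Fintype.linearIndependent_iff.mp
    (IsConstExt.linearIndependent (F := F) (L := L) s.card (fun j => e (s.equivFin.symm j : ι))
      (he.comp _ (Subtype.val_injective.comp s.equivFin.symm.injective)))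
    (fun j => g (s.equivFin.symm j : ι)) (by
      rw [Equiv.sum_comp s.equivFin.symm fun x : s => g x • algebraMap K L (e x),
        Finset.sum_coe_sort s fun x => g x • algebraMap K L (e x)]
      exact hg) (s.equivFin ⟨i, hi⟩)
  simpa using h

variable (B : RatVal Ω F)

/-- The integral part of the extension of scalars, mapped to `L`. -/
def emb : B.ring ⊗[Ω] K →ₐ[Ω] L :=
  Algebra.TensorProduct.productMap
    ((IsScalarTower.toAlgHom Ω F L).comp (IsScalarTower.toAlgHom Ω B.ring F))
    (IsScalarTower.toAlgHom Ω K L)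

/-- The reduction of the integral part. -/
def redTensor : B.ring ⊗[Ω] K →ₐ[Ω] K :=
  Algebra.TensorProduct.productMap ((Algebra.ofId Ω K).comp B.redAlg) (AlgHom.id Ω K)

/-- The embedding of a pure tensor. -/
theorem emb_tmul (a : B.ring) (k : K) :
    emb (L := L) B (a ⊗ₜ k) = algebraMap F L (a : F) * algebraMap K L k := rfl

omit [Algebra Ω L] [Algebra F L] [Algebra K L] [IsScalarTower Ω F L] [IsScalarTower Ω K L] in
/-- The reduction of a pure tensor. -/
theorem redTensor_tmul (a : B.ring) (k : K) :
    redTensor B (a ⊗ₜ k) = algebraMap Ω K (B.red a) * k := rfl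

variable [IsConstExt Ω K F L]

theorem emb_injective : Function.Injective (emb (K := K) (L := L) B) := by
  rw [injective_iff_map_eq_zero]
  intro z hz
  let b := Module.Free.chooseBasis Ω K
  let bB := Algebra.TensorProduct.basis B.ring b
  rw [← bB.linearCombination_repr z, Finsupp.linearCombination_apply, Finsupp.sum] at hz ⊢
  have hb : ∀ (a : B.ring) i, a • bB i = a ⊗ₜ[Ω] b i := fun a i => by
    rw [Algebra.TensorProduct.basis_apply, TensorProduct.smul_tmul', smul_eq_mul, mul_one]
  simp only [hb, map_sum, emb_tmul, ← Algebra.smul_def] at hz ⊢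
  have h := linearIndependent_iff'.mp
    (linearIndependent_image (F := F) (L := L) b.linearIndependent)
    (bB.repr z).support (fun i => ((bB.repr z i : B.ring) : F)) hz
  refine Finset.sum_eq_zero fun i hi => ?_
  rw [show bB.repr z i = 0 from Subtype.ext (h i hi), TensorProduct.zero_tmul]

omit [Algebra Ω L] [IsScalarTower Ω F L] [IsScalarTower Ω K L] [IsConstExt Ω K F L] in
/-- Among finitely many elements one has the largest valuation. -/
theorem exists_max_ne_zero {ι : Type*} (s : Finset ι) (a : ι → F) {i : ι} (hi : i ∈ s)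
    (ha : a i ≠ 0) : ∃ j ∈ s, a j ≠ 0 ∧ ∀ l ∈ s, a l / a j ∈ B.ring := by
  obtain ⟨j, hj, hmax⟩ := Finset.exists_max_image s (fun l => B.ring.valuation (a l)) ⟨i, hi⟩
  have hj0 : a j ≠ 0 := fun h => ha (by simpa [h] using hmax i hi)
  refine ⟨j, hj, hj0, fun l hl => ?_⟩
  rw [← B.ring.valuation_le_one_iff, map_div₀, div_le_one₀ (zero_lt_iff.mpr (by simpa using hj0))]
  exact hmax l hl

omit [IsConstExt Ω K F L] in
/-- A nonzero element of the span of `K` is a constant times an integral one with nonzero
reduction. -/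
theorem exists_const_mul_emb {m : L}
    (hm : m ∈ Submodule.span F (Set.range (algebraMap K L))) (hm0 : m ≠ 0) :
    ∃ c : F, c ≠ 0 ∧ ∃ z, m = algebraMap F L c * emb B z ∧ redTensor (K := K) B z ≠ 0 := by
  classical
  let b := Module.Free.chooseBasis Ω K
  have hle : Submodule.span F (Set.range (algebraMap K L)) ≤
      Submodule.span F (Set.range fun i => algebraMap K L (b i)) := by
    rw [Submodule.span_le]
    rintro _ ⟨k, rfl⟩
    rw [← b.linearCombination_repr k, Finsupp.linearCombination_apply, Finsupp.sum, map_sum]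
    refine sum_mem fun i _ => ?_
    rw [Algebra.smul_def, map_mul, ← IsScalarTower.algebraMap_apply, IsScalarTower.algebraMap_apply
      Ω F L, ← Algebra.smul_def]
    exact Submodule.smul_mem _ _ (Submodule.subset_span ⟨i, rfl⟩)
  obtain ⟨a, ha⟩ := Finsupp.mem_span_range_iff_exists_finsupp.mp (hle hm)
  rw [Finsupp.sum] at ha
  obtain ⟨i, hi⟩ : a.support.Nonempty := by
    by_contra h
    rw [Finset.not_nonempty_iff_eq_empty] at h
    exact hm0 (by rw [← ha, h, Finset.sum_empty])
  obtain ⟨j, hj, hj0, hdiv⟩ := exists_max_ne_zero B a.support a hi (Finsupp.mem_support_iff.mp hi)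
  refine ⟨a j, hj0, ∑ l ∈ a.support.attach, (⟨a l / a j, hdiv l l.2⟩ : B.ring) ⊗ₜ b l, ?_, ?_⟩
  · rw [map_sum, Finset.mul_sum, ← ha, ← Finset.sum_attach]
    refine Finset.sum_congr rfl fun l _ => ?_
    rw [emb_tmul, ← mul_assoc, ← map_mul, mul_div_cancel₀ _ hj0, ← Algebra.smul_def]
  · rw [map_sum]
    simp only [redTensor_tmul, ← Algebra.smul_def]
    intro h0
    have := linearIndependent_iff'.mp (b.linearIndependent.comp (fun l : a.support => (l : _))
      Subtype.val_injective) a.support.attach (fun l => B.red ⟨a l / a j, hdiv l l.2⟩) h0 ⟨j, hj⟩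
      (Finset.mem_attach _ _)
    exact one_ne_zero (B.hasValue_one.unique ⟨_, (by simpa [div_self hj0] using this)⟩)

omit [Algebra Ω K] [Algebra Ω F] [Algebra Ω L] [IsScalarTower Ω F L] [IsScalarTower Ω K L]
  [IsConstExt Ω K F L] in
/-- The `F`-algebra generated by `K` is its `F`-span. -/
theorem adjoin_range_toSubmodule :
    Subalgebra.toSubmodule (Algebra.adjoin F (Set.range (algebraMap K L))) =
      Submodule.span F (Set.range (algebraMap K L)) := by
  rw [Algebra.adjoin_eq_span]
  congr 1
  have : Set.range (algebraMap K L) = (MonoidHom.mrange (algebraMap K L).toMonoidHom : Set L) := rfl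
  rw [this, Submonoid.closure_eq]

variable (Ω) in
omit [IsConstExt Ω K F L] [IsScalarTower Ω F L] [IsScalarTower Ω K L] [Algebra Ω L] [Algebra Ω F] in
/-- Every element of `L` is a quotient of two elements of the span of `K`. -/
theorem exists_eq_div [hext : IsConstExt Ω K F L] (f : L) :
    ∃ r ∈ Submodule.span F (Set.range (algebraMap K L)),
      ∃ s ∈ Submodule.span F (Set.range (algebraMap K L)), f = r / s := by
  have hf : f ∈ IntermediateField.adjoin F (Set.range (algebraMap K L)) := by
    rw [hext.adjoin_eq_top]; exact IntermediateField.mem_top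
  obtain ⟨r, hr, s, hs, h⟩ := IntermediateField.mem_adjoin_iff_div.mp hf
  exact ⟨r, adjoin_range_toSubmodule.le hr, s, adjoin_range_toSubmodule.le hs, h⟩

/-- Membership in the Gauss valuation ring. -/
def GaussMem (f : L) : Prop :=
  ∃ a b : B.ring ⊗[Ω] K, redTensor B b ≠ 0 ∧ f * emb (L := L) B b = emb (L := L) B a

omit [IsConstExt Ω K F L] in
theorem gaussMem_emb (z : B.ring ⊗[Ω] K) : GaussMem (K := K) B (emb (L := L) B z) :=
  ⟨z, 1, by simp, by simp⟩

/-- The Gauss valuation ring. -/
def gaussRing : ValuationSubring L where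
  carrier := {f | GaussMem (K := K) B f}
  one_mem' := ⟨1, 1, by simp, by simp⟩
  zero_mem' := ⟨0, 1, by simp, by simp⟩
  mul_mem' := by
    rintro f g ⟨a, b, hb, h⟩ ⟨c, d, hd, h'⟩
    exact ⟨a * c, b * d, by rw [map_mul]; exact mul_ne_zero hb hd,
      by rw [map_mul, map_mul, ← h, ← h']; ring⟩
  add_mem' := by
    rintro f g ⟨a, b, hb, h⟩ ⟨c, d, hd, h'⟩
    exact ⟨a * d + c * b, b * d, by rw [map_mul]; exact mul_ne_zero hb hd,
      by rw [map_add, map_mul, map_mul, map_mul, ← h, ← h']; ring⟩
  neg_mem' := by
    rintro f ⟨a, b, hb, h⟩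
    exact ⟨-a, b, hb, by rw [map_neg, ← h]; ring⟩
  mem_or_inv_mem' := by
    intro f
    rcases eq_or_ne f 0 with rfl | hf
    · exact Or.inl ⟨0, 1, by simp, by simp⟩
    obtain ⟨r, hr, s, hs, rfl⟩ := exists_eq_div Ω (K := K) (F := F) f
    obtain ⟨hr0, hs0⟩ := div_ne_zero_iff.mp hf
    obtain ⟨c, hc, z, rfl, hz⟩ := exists_const_mul_emb B hr hr0
    obtain ⟨d, hd, w, rfl, hw⟩ := exists_const_mul_emb B hs hs0
    have hd' : algebraMap F L d ≠ 0 := by simpa using hd
    have hc' : algebraMap F L c ≠ 0 := by simpa using hc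
    have hw' : emb (L := L) B w ≠ 0 := (mul_ne_zero_iff.mp hs0).2
    have hz' : emb (L := L) B z ≠ 0 := (mul_ne_zero_iff.mp hr0).2
    rcases B.ring.mem_or_inv_mem (c / d) with h | h
    · refine Or.inl ⟨(⟨c / d, h⟩ : B.ring) ⊗ₜ 1 * z, w, hw, ?_⟩
      rw [map_mul, emb_tmul, map_one, mul_one, map_div₀]
      field_simp
    · refine Or.inr ⟨(⟨(c / d)⁻¹, h⟩ : B.ring) ⊗ₜ 1 * w, z, hz, ?_⟩
      rw [map_mul, emb_tmul, map_one, mul_one]
      show _ = algebraMap F L (c / d)⁻¹ * _
      rw [map_inv₀, map_div₀]
      field_simp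

/-- The residue map of the Gauss valuation ring. -/
def gaussRed (f : gaussRing (K := K) (L := L) B) : K :=
  redTensor B (Classical.choose f.2) / redTensor B (Classical.choose (Classical.choose_spec f.2))

theorem gaussRed_eq {f : gaussRing (K := K) (L := L) B} {a b : B.ring ⊗[Ω] K}
    (hb : redTensor (K := K) B b ≠ 0) (h : (f : L) * emb B b = emb B a) :
    gaussRed B f = redTensor B a / redTensor B b := by
  obtain ⟨hb', h'⟩ := Classical.choose_spec (Classical.choose_spec f.2)
  set a' := Classical.choose f.2
  set b' := Classical.choose (Classical.choose_spec f.2)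
  have : a' * b = a * b' := emb_injective (L := L) B (by
    rw [map_mul, map_mul, ← h, ← h']; ring)
  rw [gaussRed, div_eq_div_iff hb' hb, ← map_mul, ← map_mul, this]

/-- The Gauss valuation, with residue field `K`. -/
def gauss : RatVal K L where
  ring := gaussRing (K := K) B
  red :=
    { toFun := gaussRed B
      map_one' := by
        rw [gaussRed_eq (a := 1) (b := 1) B (by simp) (by simp)]; simp
      map_zero' := by
        rw [gaussRed_eq (a := 0) (b := 1) B (by simp) (by simp)]; simp
      map_mul' := fun f g => by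
        obtain ⟨a, b, hb, h⟩ := f.2
        obtain ⟨c, d, hd, h'⟩ := g.2
        rw [gaussRed_eq B hb h, gaussRed_eq B hd h',
          gaussRed_eq (f := f * g) (a := a * c) (b := b * d) B
            (by rw [map_mul]; exact mul_ne_zero hb hd)
            (by rw [map_mul, map_mul, ← h, ← h', Subring.coe_mul]; ring),
          map_mul, map_mul, div_mul_div_comm]
      map_add' := fun f g => by
        obtain ⟨a, b, hb, h⟩ := f.2
        obtain ⟨c, d, hd, h'⟩ := g.2
        rw [gaussRed_eq B hb h, gaussRed_eq B hd h',
          gaussRed_eq (f := f + g) (a := a * d + c * b) (b := b * d) B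
            (by rw [map_mul]; exact mul_ne_zero hb hd)
            (by rw [map_add, map_mul, map_mul, map_mul, ← h, ← h', Subring.coe_add]; ring),
          map_add, map_mul, map_mul, map_mul, div_add_div _ _ hb hd]
        ring }
  algebraMap_mem k := ⟨1 ⊗ₜ k, 1, by simp, by simp [emb_tmul]⟩
  red_algebraMap k := by
    refine (gaussRed_eq (a := 1 ⊗ₜ k) (b := 1) B (by simp) (by simp [emb_tmul])).trans ?_
    simp [redTensor_tmul]

/-- The Gauss value of an integral tensor is its reduction. -/
theorem gauss_hasValue_emb (z : B.ring ⊗[Ω] K) :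
    (gauss (L := L) B).HasValue (emb B z) (redTensor (K := K) B z) :=
  ⟨gaussMem_emb B z, (gaussRed_eq (a := z) (b := 1) B (by simp) (by simp)).trans (by simp)⟩

/-- On constants the Gauss valuation restricts to `B`. -/
theorem gauss_hasValue_algebraMap {c : F} {a : Ω} (h : B.HasValue c a) :
    (gauss (K := K) (L := L) B).HasValue (algebraMap F L c) (algebraMap Ω K a) := by
  obtain ⟨hc, rfl⟩ := h
  simpa [emb_tmul, redTensor_tmul] using gauss_hasValue_emb (L := L) B
    ((⟨c, hc⟩ : B.ring) ⊗ₜ[Ω] (1 : K))

/-- A Gauss-integral constant is integral. -/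
theorem mem_of_algebraMap_mem_gauss {c : F}
    (h : algebraMap F L c ∈ (gauss (K := K) (L := L) B).ring) : c ∈ B.ring := by
  by_contra hc
  have h0 := gauss_hasValue_algebraMap (K := K) (L := L) B (RatVal.hasValue_inv_zero hc)
  rw [map_zero, map_inv₀] at h0
  have hc0 : algebraMap F L c ≠ 0 := by
    have : c ≠ 0 := fun h => hc (h ▸ zero_mem _)
    simpa using this
  exact (RatVal.hasValue_zero_iff (inv_ne_zero hc0)).mp h0 (by simpa using h)

/-- Every nonzero element becomes a unit of the Gauss ring after scaling by a constant. -/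
theorem exists_const_mul_hasValue {f : L} (hf : f ≠ 0) :
    ∃ c : F, c ≠ 0 ∧ ∃ g : K, g ≠ 0 ∧ (gauss B).HasValue (algebraMap F L c * f) g := by
  obtain ⟨r, hr, s, hs, rfl⟩ := exists_eq_div Ω (K := K) (F := F) f
  obtain ⟨hr0, hs0⟩ := div_ne_zero_iff.mp hf
  obtain ⟨c, hc, z, rfl, hz⟩ := exists_const_mul_emb B hr hr0
  obtain ⟨d, hd, w, rfl, hw⟩ := exists_const_mul_emb B hs hs0
  refine ⟨d / c, div_ne_zero hd hc, redTensor B z / redTensor B w, div_ne_zero hz hw, ?_⟩
  have h := (gauss_hasValue_emb (L := L) B z).mul ((gauss_hasValue_emb (L := L) B w).inv hw)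
  rw [div_eq_mul_inv (redTensor B z)]
  convert h using 1
  have hd' : algebraMap F L d ≠ 0 := by simpa using hd
  have hc' : algebraMap F L c ≠ 0 := by simpa using hc
  rw [map_div₀]
  field_simp

/-- The Gauss value of an integral polynomial in `t` is the value of its reduction. -/
theorem gauss_hasValue_aeval (t : K) (p : B.ring[X]) :
    (gauss (L := L) B).HasValue (aeval (algebraMap K L t) (p.map B.ring.subtype))
      (aeval t (p.map B.red)) := by
  induction p using Polynomial.induction_on' with
  | add p q hp hq => simpa using hp.add hq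
  | monomial n a =>
    simp only [Polynomial.map_monomial, aeval_monomial]
    exact (gauss_hasValue_algebraMap B ⟨a.2, rfl⟩).mul
      (((gauss B).hasValue_algebraMap t).pow n)

end

end Fermat.Agent.ConstReduction
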