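import Fermat.Agent.ConstReduction.Constants
import Fermat.Agent.RelJac.DomainTensor
import Mathlib.RingTheory.Localization.FractionRing
import Mathlib.RingTheory.Flat.Basic

/-!
# The constant extension of a field

Constant extensions exist; a criterion for them, and their behaviour in towers.
-/

set_option autoImplicit false

noncomputable section

open IntermediateField Polynomial TensorProduct
open Fermat.Agent.FunctionField

namespace Fermat.Agent.ConstReduction

section Domain

variable (Ω F K : Type*) [Field Ω] [Field F] [Field K] [Algebra Ω F] [Algebra Ω K]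

theorem range_map_mono {u v : Finset K} (huv : u ⊆ v) :
    (Algebra.TensorProduct.map (AlgHom.id Ω F) (Algebra.adjoin Ω (u : Set K)).val).range ≤
      (Algebra.TensorProduct.map (AlgHom.id Ω F) (Algebra.adjoin Ω (v : Set K)).val).range := by
  have hle : Algebra.adjoin Ω (u : Set K) ≤ Algebra.adjoin Ω (v : Set K) :=
    Algebra.adjoin_mono (Finset.coe_subset.mpr huv)
  rw [← Subalgebra.val_comp_inclusion hle, ← AlgHom.comp_id (AlgHom.id Ω F),
    Algebra.TensorProduct.map_comp, AlgHom.comp_id (AlgHom.id Ω F)]
  exact AlgHom.range_comp_le_range _ _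

theorem exists_finset_mem_range (z : F ⊗[Ω] K) : ∃ s : Finset K,
    z ∈ (Algebra.TensorProduct.map (AlgHom.id Ω F) (Algebra.adjoin Ω (s : Set K)).val).range := by
  classical
  induction z using TensorProduct.induction_on with
  | zero => exact ⟨∅, zero_mem _⟩
  | tmul a k => exact ⟨{k}, a ⊗ₜ ⟨k, Algebra.subset_adjoin (by simp)⟩, rfl⟩
  | add z w hz hw =>
    obtain ⟨s, hs⟩ := hz; obtain ⟨t, ht⟩ := hw
    exact ⟨s ∪ t, add_mem (range_map_mono Ω F K Finset.subset_union_left hs)
      (range_map_mono Ω F K Finset.subset_union_right ht)⟩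

theorem injective_map_val (A : Subalgebra Ω K) :
    Function.Injective (Algebra.TensorProduct.map (AlgHom.id Ω F) A.val) := by
  intro x y h
  refine Module.Flat.lTensor_preserves_injective_linearMap (M := F) A.val.toLinearMap
    Subtype.val_injective ?_
  exact h

variable [IsAlgClosed Ω]

/-- Over an algebraically closed field the tensor product of two fields is a domain. -/
theorem isDomain_tensor : IsDomain (F ⊗[Ω] K) := by
  classical
  have : Nontrivial (F ⊗[Ω] K) :=
    Algebra.TensorProduct.nontrivial_of_algebraMap_injective_of_isDomain Ω F K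
      (FaithfulSMul.algebraMap_injective Ω F) (FaithfulSMul.algebraMap_injective Ω K)
  have : NoZeroDivisors (F ⊗[Ω] K) := ⟨fun {z w} hzw => by
    obtain ⟨s, hs⟩ := exists_finset_mem_range Ω F K z
    obtain ⟨t, ht⟩ := exists_finset_mem_range Ω F K w
    obtain ⟨z', hz'⟩ := range_map_mono Ω F K (Finset.subset_union_left (s₂ := t)) hs
    obtain ⟨w', hw'⟩ := range_map_mono Ω F K (Finset.subset_union_right (s₁ := s)) ht
    let A := Algebra.adjoin Ω ((s ∪ t : Finset K) : Set K)
    have : Algebra.FiniteType Ω A := (Subalgebra.fg_iff_finiteType A).mp ⟨s ∪ t, rfl⟩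
    have := RelJac.isDomain_tensorProduct (k := Ω) (A := A) F
    have h : z' * w' = 0 := injective_map_val Ω F K A (by
      rw [map_mul, map_zero]; exact (congrArg₂ (· * ·) hz' hw').trans hzw)
    rcases mul_eq_zero.mp h with h | h
    · exact Or.inl (by subst h; exact hz'.symm.trans (map_zero _))
    · exact Or.inr (by subst h; exact hw'.symm.trans (map_zero _))⟩
  exact NoZeroDivisors.to_isDomain _

end Domain


theorem exists_coord {k M : Type*} [Field k] [AddCommGroup M] [Module k M] {n : ℕ} {e : Fin n → M}
    (he : LinearIndependent k e) :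
    ∃ φ : Fin n → (M →ₗ[k] k), ∀ i j, φ i (e j) = if j = i then 1 else 0 := by
  classical
  obtain ⟨ψ, hψ⟩ := LinearMap.exists_leftInverse_of_injective (Fintype.linearCombination k e)
    (LinearMap.ker_eq_bot'.mpr fun g hg => funext (Fintype.linearIndependent_iff.mp he g
      (by simpa [Fintype.linearCombination_apply] using hg)))
  refine ⟨fun i => (LinearMap.proj i).comp ψ, fun i j => ?_⟩
  have h := LinearMap.congr_fun hψ (Pi.single j 1)
  simp only [LinearMap.coe_comp, Function.comp_apply, Fintype.linearCombination_apply_single,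
    one_smul, LinearMap.id_coe, id_eq] at h
  simp [h, Pi.single_apply, eq_comm]

section Tensor

variable {Ω F K : Type*} [Field Ω] [Field F] [Field K] [Algebra Ω F] [Algebra Ω K]

theorem eq_zero_of_sum_tmul_eq_zero {n : ℕ} {e : Fin n → K} (he : LinearIndependent Ω e)
    {g : Fin n → F} (h : ∑ i, g i ⊗ₜ[Ω] e i = 0) : g = 0 := by
  classical
  obtain ⟨φ, hφ⟩ := exists_coord he
  funext i
  have h1 := congrArg (fun z => TensorProduct.rid Ω F ((φ i).lTensor F z)) h
  simpa [map_sum, hφ] using h1

end Tensor

section Field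

variable (Ω F K : Type*) [Field Ω] [IsAlgClosed Ω] [Field F] [Field K] [Algebra Ω F] [Algebra Ω K]

instance isDomain_tensor_instance : IsDomain (F ⊗[Ω] K) := isDomain_tensor Ω F K

/-- The constant extension of `K` to `F`: the fraction field of `F ⊗[Ω] K`. -/
def ConstExtField : Type _ := FractionRing (F ⊗[Ω] K)

namespace ConstExtField

instance : Field (ConstExtField Ω F K) := inferInstanceAs (Field (FractionRing (F ⊗[Ω] K)))

instance : Algebra (F ⊗[Ω] K) (ConstExtField Ω F K) :=
  inferInstanceAs (Algebra (F ⊗[Ω] K) (FractionRing (F ⊗[Ω] K)))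

instance : IsFractionRing (F ⊗[Ω] K) (ConstExtField Ω F K) :=
  inferInstanceAs (IsFractionRing (F ⊗[Ω] K) (FractionRing (F ⊗[Ω] K)))

instance algebraBase : Algebra Ω (ConstExtField Ω F K) :=
  ((algebraMap (F ⊗[Ω] K) _).comp (algebraMap Ω (F ⊗[Ω] K))).toAlgebra

instance algebraLeft : Algebra F (ConstExtField Ω F K) :=
  ((algebraMap (F ⊗[Ω] K) _).comp Algebra.TensorProduct.includeLeftRingHom).toAlgebra

instance algebraRight : Algebra K (ConstExtField Ω F K) :=
  ((algebraMap (F ⊗[Ω] K) _).comp
    (Algebra.TensorProduct.includeRight : K →ₐ[Ω] F ⊗[Ω] K).toRingHom).toAlgebra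

instance : IsScalarTower Ω F (ConstExtField Ω F K) :=
  IsScalarTower.of_algebraMap_eq fun _ => rfl

instance : IsScalarTower Ω K (ConstExtField Ω F K) :=
  IsScalarTower.of_algebraMap_eq fun c => by
    show algebraMap (F ⊗[Ω] K) _ _ = algebraMap (F ⊗[Ω] K) _ _
    congr 1
    exact (Algebra.TensorProduct.includeRight : K →ₐ[Ω] F ⊗[Ω] K).commutes c |>.symm

theorem algebraMap_tmul (a : F) (k : K) :
    algebraMap (F ⊗[Ω] K) (ConstExtField Ω F K) (a ⊗ₜ k) =
      algebraMap F (ConstExtField Ω F K) a * algebraMap K (ConstExtField Ω F K) k := by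
  show _ = algebraMap (F ⊗[Ω] K) _ (a ⊗ₜ 1) * algebraMap (F ⊗[Ω] K) _ (1 ⊗ₜ k)
  rw [← map_mul, Algebra.TensorProduct.tmul_mul_tmul, mul_one, one_mul]

theorem algebraMap_mem_adjoin (z : F ⊗[Ω] K) : algebraMap (F ⊗[Ω] K) (ConstExtField Ω F K) z ∈
    Algebra.adjoin F (Set.range (algebraMap K (ConstExtField Ω F K))) := by
  induction z using TensorProduct.induction_on with
  | zero => simp
  | tmul a k =>
    rw [algebraMap_tmul, ← Algebra.smul_def]
    exact Subalgebra.smul_mem _ (Algebra.subset_adjoin (Set.mem_range_self k)) a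
  | add z w hz hw => rw [map_add]; exact add_mem hz hw

instance : IsConstExt Ω K F (ConstExtField Ω F K) where
  linearIndependent n e he := by
    rw [Fintype.linearIndependent_iff]
    intro g hg
    refine congrFun (eq_zero_of_sum_tmul_eq_zero he (g := g) ?_)
    apply IsFractionRing.injective (F ⊗[Ω] K) (ConstExtField Ω F K)
    rw [map_zero, map_sum, ← hg]
    exact Finset.sum_congr rfl fun i _ => by rw [algebraMap_tmul, Algebra.smul_def]
  adjoin_eq_top := by
    rw [eq_top_iff]
    intro f _
    obtain ⟨a, b, -, rfl⟩ := IsFractionRing.div_surjective (A := F ⊗[Ω] K) f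
    exact IntermediateField.mem_adjoin_iff_div.mpr
      ⟨_, algebraMap_mem_adjoin Ω F K a, _, algebraMap_mem_adjoin Ω F K b, rfl⟩

end ConstExtField

end Field

section Criterion

variable {Ω K F L : Type*} [Field Ω] [Field K] [Field F] [Field L] [Algebra Ω K] [Algebra Ω F]
  [Algebra Ω L] [Algebra F L] [Algebra K L] [IsScalarTower Ω F L] [IsScalarTower Ω K L]
  [IsAlgClosed Ω] [IsFunctionField Ω K]

end Criterion

section Towers

variable {Ω K F L : Type*} [Field Ω] [Field K] [Field F] [Field L] [Algebra Ω K] [Algebra Ω F]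
  [Algebra Ω L] [Algebra F L] [Algebra K L] [IsScalarTower Ω F L] [IsScalarTower Ω K L]
  [IsConstExt Ω K F L]
variable (Fb Lb : Type*) [Field Fb] [Field Lb] [Algebra Ω Fb] [Algebra Ω Lb] [Algebra Fb F]
  [Algebra Fb L] [Algebra Fb Lb] [Algebra K Lb] [Algebra Lb L] [IsScalarTower Fb F L]
  [IsScalarTower Fb Lb L] [IsScalarTower K Lb L] [IsScalarTower Ω Fb Lb] [IsScalarTower Ω K Lb]

end Towers

section ConstField

variable {Ω K F L : Type*} [Field Ω] [Field K] [Field F] [Field L] [Algebra Ω K] [Algebra Ω F]
  [Algebra Ω L] [Algebra F L] [Algebra K L] [IsScalarTower Ω F L] [IsScalarTower Ω K L]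
  [IsConstExt Ω K F L]
variable (Fb : Type*) [Field Fb] [Algebra Ω Fb] [Algebra Fb F] [Algebra Fb L]
  [IsScalarTower Fb F L] [IsScalarTower Ω Fb L]

variable (K L) in
/-- The subfield `Fb(K)` of `L`. -/
def constField : IntermediateField Fb L := IntermediateField.adjoin Fb (Set.range (algebraMap K L))

instance constField.algebra : Algebra K (constField K L Fb) :=
  ((algebraMap K L).codRestrict (constField K L Fb).toSubfield.toSubring fun k =>
    IntermediateField.subset_adjoin Fb _ ⟨k, rfl⟩).toAlgebra

instance constField.isScalarTower_top : IsScalarTower K (constField K L Fb) L :=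
  IsScalarTower.of_algebraMap_eq fun _ => rfl

instance constField.isScalarTower_base : IsScalarTower Ω K (constField K L Fb) :=
  IsScalarTower.of_algebraMap_eq fun c => Subtype.ext (IsScalarTower.algebraMap_apply Ω K L c)

end ConstField

end Fermat.Agent.ConstReduction
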