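import Fermat.Agent.ConstReduction.NormOrd
import Mathlib.FieldTheory.IsAlgClosed.Basic

/-!
# Valuation rings with residue field the base

Valuation rings of a field `E` containing a subfield `k` and having residue field `k`, with their
composition, restriction, and the reduction of places of an extension of scalars.
-/

set_option autoImplicit false

noncomputable section

open IntermediateField AlgebraicCurve Polynomial
open Fermat.Agent.FunctionField

namespace Fermat.Agent.ConstReduction

/-- A valuation ring of `E` containing `k` together with an identification of its residue field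
with `k`. -/
structure RatVal (k E : Type*) [Field k] [Field E] [Algebra k E] where
  ring : ValuationSubring E
  red : ring →+* k
  algebraMap_mem : ∀ a : k, algebraMap k E a ∈ ring
  red_algebraMap : ∀ a : k, red ⟨_, algebraMap_mem a⟩ = a

namespace RatVal

variable {k E : Type*} [Field k] [Field E] [Algebra k E] (A : RatVal k E)

/-- `x` is integral with residue `c`. -/
def HasValue (x : E) (c : k) : Prop := ∃ h : x ∈ A.ring, A.red ⟨x, h⟩ = c

variable {A}

/-- An element with a value is integral. -/
theorem HasValue.mem {x : E} {c : k} (h : A.HasValue x c) : x ∈ A.ring := h.1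

/-- Values are unique. -/
theorem HasValue.unique {x : E} {c d : k} (h : A.HasValue x c) (h' : A.HasValue x d) : c = d := by
  obtain ⟨_, rfl⟩ := h; obtain ⟨_, rfl⟩ := h'; rfl

/-- The value of a sum. -/
theorem HasValue.add {x y : E} {c d : k} (h : A.HasValue x c) (h' : A.HasValue y d) :
    A.HasValue (x + y) (c + d) := by
  obtain ⟨hx, rfl⟩ := h; obtain ⟨hy, rfl⟩ := h'
  exact ⟨add_mem hx hy, map_add A.red ⟨x, hx⟩ ⟨y, hy⟩⟩

/-- The value of a product. -/
theorem HasValue.mul {x y : E} {c d : k} (h : A.HasValue x c) (h' : A.HasValue y d) :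
    A.HasValue (x * y) (c * d) := by
  obtain ⟨hx, rfl⟩ := h; obtain ⟨hy, rfl⟩ := h'
  exact ⟨mul_mem hx hy, map_mul A.red ⟨x, hx⟩ ⟨y, hy⟩⟩

/-- The value of an opposite. -/
theorem HasValue.neg {x : E} {c : k} (h : A.HasValue x c) : A.HasValue (-x) (-c) := by
  obtain ⟨hx, rfl⟩ := h
  exact ⟨neg_mem hx, map_neg A.red ⟨x, hx⟩⟩

/-- The value of a difference. -/
theorem HasValue.sub {x y : E} {c d : k} (h : A.HasValue x c) (h' : A.HasValue y d) :
    A.HasValue (x - y) (c - d) := by
  simpa [sub_eq_add_neg] using h.add h'.neg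

/-- The value of a power. -/
theorem HasValue.pow {x : E} {c : k} (h : A.HasValue x c) (n : ℕ) :
    A.HasValue (x ^ n) (c ^ n) := by
  obtain ⟨hx, rfl⟩ := h
  exact ⟨pow_mem hx n, map_pow A.red ⟨x, hx⟩ n⟩

variable (A)

/-- The value of a constant is itself. -/
theorem hasValue_algebraMap (a : k) : A.HasValue (algebraMap k E a) a :=
  ⟨A.algebraMap_mem a, A.red_algebraMap a⟩

/-- The value of zero is zero. -/
theorem hasValue_zero : A.HasValue 0 0 := ⟨zero_mem _, map_zero A.red⟩

/-- The value of one is one. -/
theorem hasValue_one : A.HasValue 1 1 := ⟨one_mem _, map_one A.red⟩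

/-- Integral elements have values. -/
theorem exists_hasValue {x : E} (h : x ∈ A.ring) : ∃ c, A.HasValue x c := ⟨_, h, rfl⟩

variable {A}

/-- An element with nonzero value is nonzero. -/
theorem HasValue.ne_zero {x : E} {c : k} (h : A.HasValue x c) (hc : c ≠ 0) : x ≠ 0 := by
  rintro rfl; exact hc (h.unique A.hasValue_zero)

/-- The value of a finite sum. -/
theorem HasValue.sum {ι : Type*} (s : Finset ι) {x : ι → E} {c : ι → k}
    (h : ∀ i ∈ s, A.HasValue (x i) (c i)) : A.HasValue (∑ i ∈ s, x i) (∑ i ∈ s, c i) := by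
  classical
  induction s using Finset.induction_on with
  | empty => simpa using A.hasValue_zero
  | @insert a s ha ih =>
    rw [Finset.sum_insert ha, Finset.sum_insert ha]
    exact (h a (Finset.mem_insert_self a s)).add (ih fun i hi => h i (Finset.mem_insert_of_mem hi))

/-- The value of an inverse, for a nonzero value. -/
theorem HasValue.inv {x : E} {c : k} (h : A.HasValue x c) (hc : c ≠ 0) :
    A.HasValue x⁻¹ c⁻¹ := by
  obtain ⟨hmax, hu⟩ : x⁻¹ ∈ A.ring ∧ x ≠ 0 := by
    refine ⟨?_, h.ne_zero hc⟩
    by_contra hx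
    -- `x - c` is then a nonunit with nonzero residue
    have hxm : x ∈ A.ring := h.mem
    have hy : ∀ y : E, y ∈ A.ring → y⁻¹ ∉ A.ring → ∀ d, A.HasValue y d → d = 0 := by
      intro y hy hy' d hd
      by_contra hd0
      have h1 : A.HasValue (algebraMap k E d⁻¹ * y - 1) 0 := by
        simpa [inv_mul_cancel₀ hd0] using ((A.hasValue_algebraMap d⁻¹).mul hd).sub A.hasValue_one
      set z : A.ring := ⟨algebraMap k E d⁻¹ * y - 1, h1.mem⟩
      have hnu : ¬ IsUnit z := by
        intro hu
        have := hu.map A.red
        rw [show A.red z = 0 from h1.unique ⟨h1.mem, rfl⟩ ▸ rfl] at this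
        exact not_isUnit_zero this
      have hnu' : ¬ IsUnit
          (⟨algebraMap k E d⁻¹ * y, mul_mem (A.algebraMap_mem _) hy⟩ : A.ring) := by
        intro hu
        obtain ⟨⟨w, hw⟩, hw'⟩ := isUnit_iff_exists_inv.mp hu
        have : algebraMap k E d⁻¹ * y * w = 1 := congrArg Subtype.val hw'
        apply hy'
        rw [show y⁻¹ = algebraMap k E d⁻¹ * w from
          inv_eq_of_mul_eq_one_right (by rw [← this]; ring)]
        exact mul_mem (A.algebraMap_mem _) hw
      have h2 := IsLocalRing.nonunits_add hnu' (show -z ∈ nonunits A.ring from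
        fun hu => hnu (by simpa using hu.neg))
      exact h2 (by
        convert isUnit_one (M := A.ring)
        apply Subtype.ext
        simp [z])
    exact hc (hy x hxm hx c h)
  obtain ⟨d, hd⟩ := A.exists_hasValue hmax
  have := h.mul hd
  rw [mul_inv_cancel₀ hu] at this
  rw [← eq_inv_of_mul_eq_one_right (this.unique A.hasValue_one)]
  exact hd

/-- The inverse of a non-integral element has value zero. -/
theorem hasValue_inv_zero {x : E} (hx : x ∉ A.ring) : A.HasValue x⁻¹ 0 := by
  obtain ⟨c, hc⟩ := A.exists_hasValue ((A.ring.mem_or_inv_mem x).resolve_left hx)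
  rcases eq_or_ne c 0 with rfl | hc0
  · exact hc
  · exact absurd (by simpa using (hc.inv hc0).mem) hx

/-- A nonzero element has value zero exactly when its inverse is not integral. -/
theorem hasValue_zero_iff {x : E} (hx : x ≠ 0) : A.HasValue x 0 ↔ x⁻¹ ∉ A.ring := by
  refine ⟨fun h hi => ?_, fun h => by simpa using hasValue_inv_zero h⟩
  obtain ⟨c, hc⟩ := A.exists_hasValue hi
  have := h.mul hc
  rw [mul_inv_cancel₀ hx, zero_mul] at this
  exact one_ne_zero (A.hasValue_one.unique this)

variable (A)

/-- The residue map as a `k`-algebra map on the valuation ring. -/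
instance algebraRing : Algebra k A.ring :=
  ((algebraMap k E).codRestrict A.ring.toSubring A.algebraMap_mem).toAlgebra

instance : IsScalarTower k A.ring E := IsScalarTower.of_algebraMap_eq fun _ => rfl

/-- The residue map. -/
def redAlg : A.ring →ₐ[k] k :=
  { A.red with commutes' := A.red_algebraMap }

/-- An integral element has its reduction as value. -/
theorem red_eq {x : A.ring} : A.HasValue (x : E) (A.red x) := ⟨x.2, rfl⟩

end RatVal

section

variable {Ω K F L : Type*} [Field Ω] [Field K] [Field F] [Field L] [Algebra Ω K] [Algebra Ω F]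
  [Algebra Ω L] [Algebra F L] [Algebra K L]

/-- The subring underlying the composition. -/
def RatVal.compRing (A : RatVal F L) (B : RatVal Ω F) : ValuationSubring L where
  carrier := {x | ∃ c, A.HasValue x c ∧ c ∈ B.ring}
  mul_mem' := fun ⟨c, hc, hc'⟩ ⟨d, hd, hd'⟩ => ⟨c * d, hc.mul hd, mul_mem hc' hd'⟩
  one_mem' := ⟨1, A.hasValue_one, one_mem _⟩
  add_mem' := fun ⟨c, hc, hc'⟩ ⟨d, hd, hd'⟩ => ⟨c + d, hc.add hd, add_mem hc' hd'⟩
  zero_mem' := ⟨0, A.hasValue_zero, zero_mem _⟩
  neg_mem' := fun ⟨c, hc, hc'⟩ => ⟨-c, hc.neg, neg_mem hc'⟩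
  mem_or_inv_mem' := fun x => by
    by_cases hx : x ∈ A.ring
    · obtain ⟨c, hc⟩ := A.exists_hasValue hx
      rcases B.ring.mem_or_inv_mem c with h | h
      · exact Or.inl ⟨c, hc, h⟩
      · rcases eq_or_ne c 0 with rfl | hc0
        · exact Or.inl ⟨0, hc, zero_mem _⟩
        · exact Or.inr ⟨c⁻¹, hc.inv hc0, h⟩
    · exact Or.inr ⟨0, RatVal.hasValue_inv_zero hx, zero_mem _⟩

/-- The residue map of the composition. -/
def RatVal.compRed (A : RatVal F L) (B : RatVal Ω F) (x : A.compRing B) : Ω :=
  B.red ⟨Classical.choose x.2, (Classical.choose_spec x.2).2⟩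

omit [Algebra Ω L] in
theorem RatVal.compRed_eq {A : RatVal F L} {B : RatVal Ω F} {x : A.compRing B} {c : F} {a : Ω}
    (h : A.HasValue (x : L) c) (h' : B.HasValue c a) : A.compRed B x = a := by
  obtain ⟨hc, rfl⟩ := h'
  exact congrArg B.red (Subtype.ext ((Classical.choose_spec x.2).1.unique h))

omit [Algebra Ω L] in
theorem RatVal.compRed_spec {A : RatVal F L} {B : RatVal Ω F} (x : A.compRing B) :
    ∃ c, A.HasValue (x : L) c ∧ B.HasValue c (A.compRed B x) :=
  ⟨_, (Classical.choose_spec x.2).1, (Classical.choose_spec x.2).2, rfl⟩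

/-- Composition of a valuation ring of `L` with residue field `F` and one of `F` with residue
field `Ω`. -/
def RatVal.comp [IsScalarTower Ω F L] (A : RatVal F L) (B : RatVal Ω F) : RatVal Ω L where
  ring := A.compRing B
  red :=
    { toFun := A.compRed B
      map_one' := RatVal.compRed_eq A.hasValue_one B.hasValue_one
      map_zero' := RatVal.compRed_eq A.hasValue_zero B.hasValue_zero
      map_mul' := fun x y => by
        obtain ⟨c, hc, hc'⟩ := RatVal.compRed_spec x
        obtain ⟨d, hd, hd'⟩ := RatVal.compRed_spec y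
        exact RatVal.compRed_eq (hc.mul hd) (hc'.mul hd')
      map_add' := fun x y => by
        obtain ⟨c, hc, hc'⟩ := RatVal.compRed_spec x
        obtain ⟨d, hd, hd'⟩ := RatVal.compRed_spec y
        exact RatVal.compRed_eq (hc.add hd) (hc'.add hd') }
  algebraMap_mem a := ⟨algebraMap Ω F a,
    by rw [IsScalarTower.algebraMap_apply Ω F L]; exact A.hasValue_algebraMap _,
    B.algebraMap_mem a⟩
  red_algebraMap a := RatVal.compRed_eq
    (by
      show A.HasValue (algebraMap Ω L a) (algebraMap Ω F a)
      rw [IsScalarTower.algebraMap_apply Ω F L]; exact A.hasValue_algebraMap _)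
    (B.hasValue_algebraMap a)

/-- Values for a composite valuation ring. -/
theorem RatVal.hasValue_comp [IsScalarTower Ω F L] {A : RatVal F L} {B : RatVal Ω F} {x : L}
    {a : Ω} : (A.comp B).HasValue x a ↔ ∃ c, A.HasValue x c ∧ B.HasValue c a := by
  constructor
  · rintro ⟨h, rfl⟩
    exact RatVal.compRed_spec (A := A) (B := B) ⟨x, h⟩
  · rintro ⟨c, hc, hc'⟩
    have hm : x ∈ A.compRing B := ⟨c, hc, hc'.mem⟩
    exact ⟨hm, RatVal.compRed_eq (A := A) (B := B) (x := ⟨x, hm⟩) hc hc'⟩

/-- Restriction to a subfield containing `Ω`. -/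
def RatVal.restrict [IsScalarTower Ω K L] (A : RatVal Ω L) : RatVal Ω K where
  ring := A.ring.comap (algebraMap K L)
  red := A.red.comp (((algebraMap K L).comp (A.ring.comap (algebraMap K L)).subtype).codRestrict
    A.ring.toSubring fun x => x.2)
  algebraMap_mem a := by
    show algebraMap K L (algebraMap Ω K a) ∈ A.ring
    rw [← IsScalarTower.algebraMap_apply]; exact A.algebraMap_mem a
  red_algebraMap a := by
    refine Eq.trans (congrArg A.red (Subtype.ext ?_)) (A.red_algebraMap a)
    exact (IsScalarTower.algebraMap_apply Ω K L a).symm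

/-- Values for a restricted valuation ring. -/
theorem RatVal.hasValue_restrict [IsScalarTower Ω K L] {A : RatVal Ω L} {x : K} {a : Ω} :
    (A.restrict (K := K)).HasValue x a ↔ A.HasValue (algebraMap K L x) a :=
  ⟨fun ⟨h, e⟩ => ⟨h, e⟩, fun ⟨h, e⟩ => ⟨h, e⟩⟩

/-- A valuation ring with residue field `Ω` of a field of positive transcendence degree is
proper. -/
theorem RatVal.ring_ne_top (A : RatVal Ω K) (h : ∃ x : K, Transcendental Ω x) : A.ring ≠ ⊤ := by
  obtain ⟨x, hx⟩ := h
  intro htop
  have hall : ∀ y : K, y ∈ A.ring := fun y => htop ▸ ValuationSubring.mem_top y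
  obtain ⟨c, hc⟩ := A.exists_hasValue (hall x)
  have h0 : A.HasValue (x - algebraMap Ω K c) 0 := by
    simpa using hc.sub (A.hasValue_algebraMap c)
  have hne : x - algebraMap Ω K c ≠ 0 := fun h' =>
    hx (sub_eq_zero.mp h' ▸ isAlgebraic_algebraMap c)
  exact (RatVal.hasValue_zero_iff hne).mp h0 (hall _)

/-- An element has a zero at a place exactly when its inverse is not in the ring of the place. -/
theorem ord_pos_iff_inv_notMem (v : Place F L) {x : L} (hx : x ≠ 0) :
    0 < v.ord x ↔ x⁻¹ ∉ v.toValuationSubring := by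
  rw [mem_iff_adicValuation_le_one, v.adicValuation_eq_exp_neg_ord (inv_ne_zero hx), v.ord_inv,
    ← WithZero.exp_zero, WithZero.exp_le_exp]
  omega

variable [IsAlgClosed F] [IsFunctionField F L]

/-- Evaluation at a place. -/
def valueAt (P : Place F L) : RatVal F L where
  ring := P.toValuationSubring
  red := (RingEquiv.ofBijective (algebraMap F P.ResidueField)
    (IsAlgClosed.algebraMap_bijective_of_isIntegral
      (k := F) (K := P.ResidueField))).symm.toRingHom.comp
      (IsLocalRing.residue P.toValuationSubring)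
  algebraMap_mem := P.algebraMap_mem'
  red_algebraMap a := by
    simp only [RingHom.coe_comp, Function.comp_apply, RingEquiv.toRingHom_eq_coe, RingHom.coe_coe]
    rw [RingEquiv.symm_apply_eq]
    rfl

/-- An element has value zero at a place exactly when it has a zero there. -/
theorem valueAt_hasValue_zero_iff (P : Place F L) {x : L} (hx : x ≠ 0) :
    (valueAt P).HasValue x 0 ↔ 0 < P.ord x :=
  (RatVal.hasValue_zero_iff hx).trans (ord_pos_iff_inv_notMem P hx).symm

/-- An element has value `c` at a place exactly when `x - c` has a zero there. -/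
theorem valueAt_hasValue_iff (P : Place F L) {x : L} (hx : Transcendental F x) (c : F) :
    (valueAt P).HasValue x c ↔ P ∈ zerosAt (x := x) c := by
  have hne : x - algebraMap F L c ≠ 0 := transcendental_ne_zero (transcendental_sub_const hx c)
  rw [mem_zerosAt, ← valueAt_hasValue_zero_iff P hne]
  constructor
  · intro h; simpa using h.sub ((valueAt P).hasValue_algebraMap c)
  · intro h; simpa using h.add ((valueAt P).hasValue_algebraMap c)

variable [IsScalarTower Ω F L] [IsScalarTower Ω K L] [IsFunctionField Ω K]

/-- Reduction of places: the place of `K` consisting of the functions with integral value at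
`P`. -/
def redPlace (B : RatVal Ω F) (P : Place F L) : Place Ω K :=
  placeOfValuationSubring (((valueAt P).comp B).restrict (K := K)).ring
    (((valueAt P).comp B).restrict (K := K)).algebraMap_mem
    (RatVal.ring_ne_top _ IsFunctionField.exists_transcendental)

/-- The zeros of an element of `K` at a reduced place. -/
theorem redPlace_ord_pos_iff (B : RatVal Ω F) (P : Place F L) {x : K} (hx : x ≠ 0) :
    0 < (redPlace B P : Place Ω K).ord x ↔
      ∃ c, (valueAt P).HasValue (algebraMap K L x) c ∧ B.HasValue c 0 := by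
  rw [ord_pos_iff_inv_notMem _ hx, ← RatVal.hasValue_comp, ← RatVal.hasValue_restrict (K := K),
    RatVal.hasValue_zero_iff hx]
  rfl

/-- The ring of a reduced place. -/
theorem redPlace_mem_iff (B : RatVal Ω F) (P : Place F L) {x : K} :
    x ∈ (redPlace B P : Place Ω K).toValuationSubring ↔
      ∃ c, (valueAt P).HasValue (algebraMap K L x) c ∧ c ∈ B.ring := by
  show x ∈ (((valueAt P).comp B).restrict (K := K)).ring ↔ _
  constructor
  · intro h
    obtain ⟨a, ha⟩ := RatVal.exists_hasValue _ h
    obtain ⟨c, hc, hc'⟩ := RatVal.hasValue_comp.mp (RatVal.hasValue_restrict.mp ha)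
    exact ⟨c, hc, hc'.mem⟩
  · rintro ⟨c, hc, hc'⟩
    obtain ⟨a, ha⟩ := B.exists_hasValue hc'
    exact (RatVal.hasValue_restrict.mpr (RatVal.hasValue_comp.mpr ⟨c, hc, ha⟩)).mem

end

end Fermat.Agent.ConstReduction
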