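import Fermat.Agent.ConstReduction.Deuring

/-!
# Functions regular above a place of the reduced curve

They have integral values with the correct residue.
-/

set_option autoImplicit false

noncomputable section

open IntermediateField Polynomial AlgebraicCurve
open Fermat.Agent.FunctionField

namespace Fermat.Agent.ConstReduction

/-- Values depend only on the valuation ring. -/
theorem RatVal.HasValue.congr_ring {k E : Type*} [Field k] [Field E] [Algebra k E]
    {A A' : RatVal k E} (hring : A.ring = A'.ring) {x : E} {c : k} (h : A.HasValue x c) :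
    A'.HasValue x c := by
  obtain ⟨d, hd⟩ := A'.exists_hasValue (hring ▸ h.mem)
  suffices c = d from this ▸ hd
  have h0 : A.HasValue (x - algebraMap k E c) 0 := by
    simpa using h.sub (A.hasValue_algebraMap c)
  rcases eq_or_ne (x - algebraMap k E c) 0 with hx | hx
  · rw [sub_eq_zero] at hx
    exact ((A'.hasValue_algebraMap c).unique (hx ▸ hd))
  · have h1 : A'.HasValue (x - algebraMap k E c) 0 :=
      (RatVal.hasValue_zero_iff hx).mpr (hring ▸ (RatVal.hasValue_zero_iff hx).mp h0)
    have := hd.unique (by simpa using h1.add (A'.hasValue_algebraMap c))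
    exact this.symm

section

variable {Ω K F L : Type*} [Field Ω] [Field K] [Field F] [Field L] [Algebra Ω K] [Algebra Ω F]
  [Algebra Ω L] [Algebra F L] [Algebra K L] [IsScalarTower Ω F L] [IsScalarTower Ω K L]
  [IsAlgClosed Ω] [IsAlgClosed F] [IsFunctionField Ω K] [IsFunctionField F L] (B : RatVal Ω F)

/-- The value at the reduced place is the reduction of the value. -/
theorem valueAt_redPlace_hasValue_iff (P : Place F L) {h : K} {a : Ω} :
    (valueAt (redPlace B P : Place Ω K)).HasValue h a ↔
      ∃ c, (valueAt P).HasValue (algebraMap K L h) c ∧ B.HasValue c a := by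
  rw [← RatVal.hasValue_comp, ← RatVal.hasValue_restrict (K := K)]
  constructor
  · intro hv
    exact RatVal.HasValue.congr_ring (A := valueAt (redPlace B P : Place Ω K))
      (A' := ((valueAt P).comp B).restrict) rfl hv
  · intro hv
    exact RatVal.HasValue.congr_ring (A := ((valueAt P).comp B).restrict)
      (A' := valueAt (redPlace B P : Place Ω K)) rfl hv

omit [IsAlgClosed Ω] in
/-- The coefficient of a reduced divisor is the sum over the places above. -/
theorem redDiv_apply_eq_sum (D : Divisor F L) (q : Place Ω K) [DecidableEq (Place Ω K)] :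
    redDiv B D q = ∑ P ∈ D.support, if redPlace B P = q then D P else 0 := by
  simp only [redDiv_apply, Finsupp.mapDomain, Finsupp.sum, Finsupp.finsetSum_apply,
    Finsupp.single_apply]

omit [IsAlgClosed Ω] in
/-- A divisor nonnegative above `q` has nonnegative reduction at `q`. -/
theorem redDiv_apply_nonneg {D : Divisor F L} {q : Place Ω K}
    (hD : ∀ P, redPlace B P = q → 0 ≤ D P) : 0 ≤ redDiv B D q := by
  classical
  rw [redDiv_apply_eq_sum]
  refine Finset.sum_nonneg fun P _ => ?_
  split
  · exact hD P ‹_›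
  · exact le_rfl

omit [IsAlgClosed Ω] in
/-- A divisor nonnegative above `q` has each coefficient there bounded by that of its reduction. -/
theorem le_redDiv_apply {D : Divisor F L} {q : Place Ω K}
    (hD : ∀ P, redPlace B P = q → 0 ≤ D P) {P : Place F L} (hP : redPlace B P = q) :
    D P ≤ redDiv B D q := by
  classical
  rw [redDiv_apply_eq_sum]
  by_cases hs : P ∈ D.support
  · refine le_trans ?_ (Finset.single_le_sum (fun Q _ => ?_) hs)
    · rw [if_pos hP]
    · split
      · exact hD Q ‹_›
      · exact le_rfl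
  · rw [Finsupp.notMem_support_iff.mp hs]
    refine Finset.sum_nonneg fun Q _ => ?_
    split
    · exact hD Q ‹_›
    · exact le_rfl

variable [IsConstExt Ω K F L]

/-- A Gauss-integral function without poles above `q` has a residue regular at `q`, and its values
above `q` are integral and reduce to the value of the residue at `q`. -/
theorem exists_value_of_regular {f : L} {g : K} (hfg : (gauss B).HasValue f g) {q : Place Ω K}
    (hreg : ∀ P, redPlace B P = q → f ∈ P.toValuationSubring) :
    ∃ a, (valueAt q).HasValue g a ∧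
      ∀ P, redPlace B P = q → ∃ c, (valueAt P).HasValue f c ∧ B.HasValue c a := by
  have key : ∀ (x : L) (y : K), (gauss B).HasValue x y →
      (∀ P, redPlace B P = q → x ∈ P.toValuationSubring) →
      ∀ P, redPlace B P = q → (valueAt P).HasValue x 0 → (valueAt q).HasValue y 0 := by
    intro x y hxy hxreg P hP hx
    rcases eq_or_ne y 0 with rfl | hy
    · exact (valueAt q).hasValue_zero
    have hx0 := hxy.ne_zero hy
    rw [valueAt_hasValue_zero_iff P hx0] at hx
    rw [valueAt_hasValue_zero_iff q hy, ← divFun_apply, ← redDiv_divFun B hxy hy]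
    exact lt_of_lt_of_le (divFun_apply (K := F) x P ▸ hx)
      (le_redDiv_apply B (fun Q hQ => ord_nonneg_of_mem Q (hxreg Q hQ)) hP)
  have hg : g ∈ q.toValuationSubring := by
    rcases eq_or_ne g 0 with rfl | hg
    · exact zero_mem _
    rw [mem_iff_adicValuation_le_one, q.adicValuation_eq_exp_neg_ord hg, ← WithZero.exp_zero,
      WithZero.exp_le_exp, neg_nonpos, ← divFun_apply, ← redDiv_divFun B hfg hg]
    exact redDiv_apply_nonneg B fun P hP => ord_nonneg_of_mem P (hreg P hP)
  obtain ⟨a, ha⟩ := (valueAt q).exists_hasValue hg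
  refine ⟨a, ha, fun P hP => ?_⟩
  obtain ⟨c, hc⟩ := (valueAt P).exists_hasValue (hreg P hP)
  refine ⟨c, hc, ?_⟩
  have hcO : c ∈ B.ring := by
    by_contra hc'
    have hc0 : c ≠ 0 := fun h => hc' (h ▸ zero_mem _)
    have h1 : (gauss B).HasValue (algebraMap F L c⁻¹ * f - 1) (0 * g - 1) := by
      refine RatVal.HasValue.sub (RatVal.HasValue.mul ?_ hfg) (gauss B).hasValue_one
      simpa using gauss_hasValue_algebraMap (K := K) (L := L) B (RatVal.hasValue_inv_zero hc')
    have h2 : (valueAt P).HasValue (algebraMap F L c⁻¹ * f - 1) 0 := by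
      simpa [inv_mul_cancel₀ hc0] using
        (((valueAt P).hasValue_algebraMap c⁻¹).mul hc).sub (valueAt P).hasValue_one
    have h3 := key _ _ h1 (fun Q hQ => sub_mem (mul_mem (Q.algebraMap_mem' _) (hreg Q hQ))
      (one_mem _)) P hP h2
    have h4 : (valueAt q).HasValue (0 * g - 1) (-1) := by
      simpa using ((valueAt q).hasValue_one).neg
    exact one_ne_zero (neg_eq_zero.mp (h4.unique h3))
  obtain ⟨a', ha'⟩ := B.exists_hasValue hcO
  suffices a' = a from this ▸ ha'
  have h1 := hfg.sub (gauss_hasValue_algebraMap (K := K) (L := L) B ha')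
  have h2 : (valueAt P).HasValue (f - algebraMap F L c) 0 := by
    simpa using hc.sub ((valueAt P).hasValue_algebraMap c)
  have h3 := key _ _ h1 (fun Q hQ => sub_mem (hreg Q hQ) (Q.algebraMap_mem' _)) P hP h2
  exact ((ha.sub ((valueAt q).hasValue_algebraMap a')).unique h3 |> sub_eq_zero.mp).symm

/-- The ring of Gauss-integral functions without poles above `q`. -/
def regRing (q : Place Ω K) : Subring L where
  carrier := {f | f ∈ (gauss (K := K) B).ring ∧
    ∀ P : Place F L, redPlace B P = q → f ∈ P.toValuationSubring}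
  mul_mem' := fun ⟨h, h'⟩ ⟨k, k'⟩ => ⟨mul_mem h k, fun P hP => mul_mem (h' P hP) (k' P hP)⟩
  one_mem' := ⟨one_mem _, fun _ _ => one_mem _⟩
  add_mem' := fun ⟨h, h'⟩ ⟨k, k'⟩ => ⟨add_mem h k, fun P hP => add_mem (h' P hP) (k' P hP)⟩
  zero_mem' := ⟨zero_mem _, fun _ _ => zero_mem _⟩
  neg_mem' := fun ⟨h, h'⟩ => ⟨neg_mem h, fun P hP => neg_mem (h' P hP)⟩

/-- A function regular above `q` whose residue is nonzero at `q` has an inverse regular above
`q`. -/
theorem inv_mem_regRing {q : Place Ω K} {f : L} {g : K} (hfg : (gauss B).HasValue f g)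
    (hreg : ∀ P, redPlace B P = q → f ∈ P.toValuationSubring) {a : Ω}
    (ha : (valueAt q).HasValue g a) (ha0 : a ≠ 0) : f⁻¹ ∈ regRing B q := by
  refine ⟨(hfg.inv (ha.ne_zero ha0)).mem, fun P hP => ?_⟩
  obtain ⟨a', ha', hP'⟩ := exists_value_of_regular B hfg hreg
  obtain ⟨c, hc, hca⟩ := hP' P hP
  exact (hc.inv (hca.ne_zero (ha'.unique ha ▸ ha0))).mem

instance isLocalRing_regRing (q : Place Ω K) : IsLocalRing (regRing B q : Subring L) := by
  refine IsLocalRing.of_isUnit_or_isUnit_one_sub_self fun x => ?_
  obtain ⟨g, hg⟩ := (gauss B).exists_hasValue x.2.1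
  obtain ⟨a, ha, -⟩ := exists_value_of_regular B hg x.2.2
  have hu : ∀ (y : regRing B q) (g : K) (a : Ω), (gauss B).HasValue (y : L) g →
      (valueAt q).HasValue g a → a ≠ 0 → IsUnit y := fun y g a hg ha ha0 =>
    isUnit_iff_exists_inv.mpr ⟨⟨_, inv_mem_regRing B hg y.2.2 ha ha0⟩,
      Subtype.ext (mul_inv_cancel₀ (hg.ne_zero (ha.ne_zero ha0)))⟩
  rcases eq_or_ne a 0 with rfl | ha0
  · exact Or.inr (hu (1 - x) (1 - g) 1 ((gauss B).hasValue_one.sub hg)
      (by simpa using (valueAt q).hasValue_one.sub ha) one_ne_zero)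
  · exact Or.inl (hu x g a hg ha ha0)

end

end Fermat.Agent.ConstReduction
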