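import Fermat.Agent.ConstReduction.RatVal
import Fermat.Agent.AVTorsion.PlaceExtend

/-!
# Valuation rings with a prescribed residue field

Over an algebraically closed base there are valuation rings with residue field the base.
-/

set_option autoImplicit false

noncomputable section

namespace Fermat.Agent.ConstReduction

variable {Ω F : Type*} [Field Ω] [Field F] [Algebra Ω F] [IsAlgClosed Ω]

/-- A specialisation of a subalgebra extends to a valuation ring with residue field `Ω`. -/
theorem exists_ratVal_extend (R : Subalgebra Ω F) (π₀ : R →ₐ[Ω] Ω) :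
    ∃ B : RatVal Ω F, ∀ r : R, B.HasValue (r : F) (π₀ r) := by
  obtain ⟨V, hV, π, -, hπ, hR⟩ := AVTorsion.exists_place_extend R π₀
  exact ⟨⟨V, π, hV, hπ⟩, fun r => hR r⟩

/-- There is a valuation ring with residue field the base. -/
theorem nonempty_ratVal : Nonempty (RatVal Ω F) := by
  obtain ⟨B, -⟩ := exists_ratVal_extend (⊥ : Subalgebra Ω F) (Algebra.botEquiv Ω F).toAlgHom
  exact ⟨B⟩

end Fermat.Agent.ConstReduction
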