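import Fermat.Agent.ConstReduction.Deuring

/-!
# Semicontinuity of `l(D)`

Finite-dimensional spaces of functions reduce without loss of dimension, hence `l(D)` is
semicontinuous.
-/

set_option autoImplicit false

noncomputable section

open IntermediateField Polynomial AlgebraicCurve TensorProduct
open Fermat.Agent.FunctionField

namespace Fermat.Agent.ConstReduction

section Echelon

variable {Ω F : Type*} [Field Ω] [Field F] [Algebra Ω F] (B : RatVal Ω F)

/-- A finite-dimensional space of finitely supported vectors has a basis with integral entries and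
independent reductions. -/
theorem exists_independent_reduction {ι : Type*} : ∀ (n : ℕ) (U : Submodule F (ι →₀ F)),
    FiniteDimensional F U → Module.finrank F U = n →
    ∃ (v : Fin n → ι →₀ F) (r : Fin n → ι →₀ Ω), (∀ i, v i ∈ U) ∧
      (∀ i j, B.HasValue (v i j) (r i j)) ∧ LinearIndependent Ω r := by
  classical
  intro n
  induction n with
  | zero =>
    intro U _ _
    exact ⟨fun i => i.elim0, fun i => i.elim0, fun i => i.elim0, fun i => i.elim0,
      linearIndependent_empty_type⟩
  | succ n ih =>
    intro U hU hn
    obtain ⟨u, hu, hu0⟩ := Submodule.exists_mem_ne_zero_of_ne_bot (p := U) fun h => by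
      rw [h, finrank_bot] at hn; omega
    obtain ⟨i, hi⟩ := Finsupp.support_nonempty_iff.mpr hu0
    obtain ⟨j, hj, hj0, hdiv⟩ := exists_max_ne_zero B u.support u hi
      (Finsupp.mem_support_iff.mp hi)
    set u' := (u j)⁻¹ • u with hu'def
    have hu' : u' ∈ U := U.smul_mem _ hu
    have hint : ∀ l, u' l ∈ B.ring := fun l => by
      rw [hu'def, Finsupp.smul_apply, smul_eq_mul, inv_mul_eq_div]
      rcases eq_or_ne (u l) 0 with h | h
      · rw [h, zero_div]; exact zero_mem _
      · exact hdiv l (Finsupp.mem_support_iff.mpr h)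
    have huj : u' j = 1 := by
      rw [hu'def, Finsupp.smul_apply, smul_eq_mul, inv_mul_cancel₀ hj0]
    let ev : U →ₗ[F] F :=
      { toFun := fun w => (w : ι →₀ F) j, map_add' := fun _ _ => rfl, map_smul' := fun _ _ => rfl }
    have hsurj : LinearMap.range ev = ⊤ := by
      rw [LinearMap.range_eq_top]
      exact fun c => ⟨⟨c • u', U.smul_mem c hu'⟩, show c * u' j = c by rw [huj, mul_one]⟩
    have hker := LinearMap.finrank_range_add_finrank_ker (K := F) (V := U) (V₂ := F) ev
    rw [hsurj, finrank_top, Module.finrank_self, hn] at hker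
    have : IsNoetherian F U := isNoetherian_of_isNoetherianRing_of_finite F U
    have : Module.Finite F (LinearMap.ker ev) :=
      Module.Finite.of_injective (LinearMap.ker ev).subtype Subtype.val_injective
    let e := (LinearMap.ker ev).equivMapOfInjective U.subtype Subtype.val_injective
    obtain ⟨v, r, hv, hvr, hr⟩ := ih ((LinearMap.ker ev).map U.subtype)
      (Module.Finite.equiv e) (by rw [← e.finrank_eq]; omega)
    let ru : ι →₀ Ω := Finsupp.onFinset u.support (fun l => B.red ⟨u' l, hint l⟩) fun l hl => by
      rw [Finsupp.mem_support_iff]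
      intro h
      refine hl ((B.hasValue_zero.unique ⟨?_, ?_⟩).symm)
      · exact zero_mem _
      · congr 1
        exact Subtype.ext (by simp [hu'def, h])
    have hvj : ∀ i, v i j = 0 := fun i => by
      obtain ⟨w, hw, hwv⟩ := hv i
      rw [← hwv]
      exact LinearMap.mem_ker.mp hw
    refine ⟨Fin.cons u' v, Fin.cons ru r, ?_, ?_, ?_⟩
    · refine Fin.cases hu' fun i => ?_
      obtain ⟨w, -, hwv⟩ := hv i
      rw [Fin.cons_succ, ← hwv]
      exact w.2
    · refine Fin.cases (fun l => ⟨hint l, rfl⟩) fun i => ?_
      simpa using hvr i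
    · rw [Fintype.linearIndependent_iff]
      intro g hg
      simp only [Fin.sum_univ_succ, Fin.cons_zero, Fin.cons_succ] at hg
      have h0 : g 0 = 0 := by
        have := congrArg (fun x : ι →₀ Ω => x j) hg
        simp only [Finsupp.add_apply, Finsupp.smul_apply, Finsupp.finsetSum_apply,
          Finsupp.zero_apply, smul_eq_mul] at this
        have hru : ru j = 1 := RatVal.HasValue.unique
          (A := B) (x := u' j) ⟨hint j, rfl⟩ (huj ▸ B.hasValue_one)
        have hrj : ∀ i, r i j = 0 := fun i =>
          (hvr i j).unique ((hvj i).symm ▸ B.hasValue_zero)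
        simpa [hru, hrj] using this
      rw [h0, zero_smul, zero_add] at hg
      exact Fin.cases h0 (Fintype.linearIndependent_iff.mp hr _ hg)

end Echelon

section

variable {Ω K F L : Type*} [Field Ω] [Field K] [Field F] [Field L] [Algebra Ω K] [Algebra Ω F]
  [Algebra Ω L] [Algebra F L] [Algebra K L] [IsScalarTower Ω F L] [IsScalarTower Ω K L]
  [IsConstExt Ω K F L] (B : RatVal Ω F)

omit [Algebra Ω K] [Algebra Ω F] [Algebra Ω L] [IsScalarTower Ω F L] [IsScalarTower Ω K L]
  [IsConstExt Ω K F L] in
theorem mul_mem_span {r s : L} (hr : r ∈ Submodule.span F (Set.range (algebraMap K L)))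
    (hs : s ∈ Submodule.span F (Set.range (algebraMap K L))) :
    r * s ∈ Submodule.span F (Set.range (algebraMap K L)) := by
  rw [← adjoin_range_toSubmodule] at hr hs ⊢
  exact mul_mem (S := Subalgebra F L) hr hs

omit [Algebra Ω L] [Algebra Ω F] [IsScalarTower Ω F L] [IsScalarTower Ω K L]
  [IsConstExt Ω K F L] in
variable (Ω) in
/-- Finitely many functions have a common denominator in the span of `K`. -/
theorem exists_common_den [IsConstExt Ω K F L] (s : Finset L) :
    ∃ d ∈ Submodule.span F (Set.range (algebraMap K L)), d ≠ 0 ∧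
      ∀ f ∈ s, d * f ∈ Submodule.span F (Set.range (algebraMap K L)) := by
  classical
  induction s using Finset.induction_on with
  | empty => exact ⟨1, Submodule.subset_span ⟨1, map_one _⟩, one_ne_zero, by simp⟩
  | @insert f s _ ih =>
    obtain ⟨d, hd, hd0, hds⟩ := ih
    obtain ⟨r, hr, t, ht, hf⟩ := exists_eq_div Ω (K := K) (F := F) f
    rcases eq_or_ne t 0 with rfl | ht0
    · refine ⟨d, hd, hd0, fun g hg => ?_⟩
      rcases Finset.mem_insert.mp hg with rfl | hg
      · simp [hf]
      · exact hds g hg
    refine ⟨d * t, mul_mem_span hd ht, mul_ne_zero hd0 ht0, fun g hg => ?_⟩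
    rcases Finset.mem_insert.mp hg with rfl | hg
    · rw [hf, mul_assoc, mul_div_cancel₀ _ ht0]
      exact mul_mem_span hd hr
    · rw [mul_right_comm]
      exact mul_mem_span (hds g hg) ht

/-- A finite-dimensional space of functions reduces to a space of the same dimension. -/
theorem exists_independent_residues (U : Submodule F L) [FiniteDimensional F U] :
    ∃ (f : Fin (Module.finrank F U) → L) (g : Fin (Module.finrank F U) → K),
      (∀ i, f i ∈ U ∧ (gauss B).HasValue (f i) (g i)) ∧ LinearIndependent Ω g := by
  classical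
  let bU := Module.finBasis F U
  obtain ⟨d, hd, hd0, hds⟩ := exists_common_den Ω (K := K) (F := F)
    (Finset.univ.image fun i => (bU i : L))
  obtain ⟨c, hc, w, hcw, hw⟩ := exists_const_mul_emb B hd hd0
  have hcL : algebraMap F L c ≠ 0 := by simpa using hc
  let b := Module.Free.chooseBasis Ω K
  let Φ := Finsupp.linearCombination F fun i => algebraMap K L (b i)
  have hΦ : Function.Injective Φ :=
    linearIndependent_image (F := F) (L := L) b.linearIndependent
  have hspan : Submodule.span F (Set.range (algebraMap K L)) ≤ LinearMap.range Φ := by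
    rw [Submodule.span_le]
    rintro _ ⟨k, rfl⟩
    refine ⟨(b.repr k).mapRange (algebraMap Ω F) (map_zero _), ?_⟩
    simp only [Φ, Finsupp.linearCombination_apply]
    rw [Finsupp.sum_mapRange_index (by simp)]
    conv_rhs => rw [← b.linearCombination_repr k, Finsupp.linearCombination_apply, map_finsuppSum]
    refine Finsupp.sum_congr fun i _ => ?_
    rw [Algebra.smul_def, Algebra.smul_def, map_mul, ← IsScalarTower.algebraMap_apply,
      ← IsScalarTower.algebraMap_apply]
  let μ : U →ₗ[F] L := (LinearMap.mulLeft F (emb B w)).domRestrict U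
  have hw0 : emb (L := L) B w ≠ 0 := fun h => hd0 (by rw [hcw, h, mul_zero])
  have hμ : Function.Injective μ := fun x y h => Subtype.ext (mul_left_cancel₀ hw0 h)
  have hμr : LinearMap.range μ ≤ LinearMap.range Φ := by
    rintro _ ⟨x, rfl⟩
    have hx : x ∈ (LinearMap.range Φ).comap μ := by
      rw [← bU.sum_repr x]
      refine sum_mem fun i _ => Submodule.smul_mem _ _ ?_
      have h1 := hspan (hds _ (Finset.mem_image_of_mem _ (Finset.mem_univ i)))
      have h2 := (LinearMap.range Φ).smul_mem c⁻¹ h1
      rw [Submodule.mem_comap]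
      convert h2 using 1
      show emb B w * (bU i : L) = c⁻¹ • (d * (bU i : L))
      rw [hcw, Algebra.smul_def, map_inv₀]
      field_simp
    exact hx
  let e := LinearEquiv.ofInjective Φ hΦ
  let eμ := LinearEquiv.ofInjective μ hμ
  set U' : Submodule F _ := (LinearMap.range μ).comap Φ
  let e' : U' ≃ₗ[F] LinearMap.range μ :=
    LinearEquiv.ofBijective (Φ.restrict fun x hx => hx)
      ⟨fun x y h => Subtype.ext (hΦ (congrArg Subtype.val h)), fun y => by
        obtain ⟨x, hx⟩ := hμr y.2
        exact ⟨⟨x, show Φ x ∈ LinearMap.range μ from hx ▸ y.2⟩, Subtype.ext hx⟩⟩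
  have : FiniteDimensional F U' := Module.Finite.equiv ((e'.trans eμ.symm).symm)
  obtain ⟨v, r, hv, hvr, hr⟩ := exists_independent_reduction B (Module.finrank F U) U' this
    ((e'.trans eμ.symm).finrank_eq)
  have hmem : ∀ i, ∃ x : U, μ x = Φ (v i) := fun i => hv i
  choose x hx using hmem
  let z : Fin (Module.finrank F U) → B.ring ⊗[Ω] K := fun i =>
    ∑ l ∈ (v i).support, (⟨v i l, (hvr i l).mem⟩ : B.ring) ⊗ₜ b l
  have hz1 : ∀ i, emb B (z i) = emb B w * (x i : L) := fun i => by
    have h : μ (x i) = emb B w * (x i : L) := rfl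
    rw [← h, hx]
    simp only [z, map_sum, emb_tmul, Φ, Finsupp.linearCombination_apply, Finsupp.sum,
      Algebra.smul_def]
  refine ⟨fun i => x i, fun i => redTensor B (z i) * (redTensor B w)⁻¹, fun i => ⟨(x i).2, ?_⟩, ?_⟩
  · have h := (gauss_hasValue_emb (L := L) B (z i)).mul ((gauss_hasValue_emb (L := L) B w).inv hw)
    convert h using 1
    rw [hz1]
    field_simp
  · have hz2 : ∀ i, redTensor B (z i) = Finsupp.linearCombination Ω b (r i) := fun i => by
      simp only [z, map_sum, redTensor_tmul, ← Algebra.smul_def]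
      rw [Finsupp.linearCombination_apply, Finsupp.sum_of_support_subset (r i) (s := (v i).support)
        (fun l hl => ?_) _ (by simp)]
      · exact Finset.sum_congr rfl fun l _ => congrArg (fun a => a • b l)
          (RatVal.HasValue.unique ⟨(hvr i l).mem, rfl⟩ (hvr i l))
      · rw [Finsupp.mem_support_iff] at hl ⊢
        intro h
        exact hl ((hvr i l).unique (h.symm ▸ B.hasValue_zero))
    have h1 : LinearIndependent Ω fun i => redTensor (K := K) B (z i) := by
      simp only [hz2]
      exact hr.map' (Finsupp.linearCombination Ω b)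
        (LinearMap.ker_eq_bot.mpr b.linearIndependent)
    exact h1.map' (LinearMap.mulRight Ω (redTensor (K := K) B w)⁻¹)
      (LinearMap.ker_eq_bot.mpr fun a a' h => mul_right_cancel₀ (inv_ne_zero hw) h)

variable [IsAlgClosed Ω] [IsAlgClosed F] [IsFunctionField Ω K] [IsFunctionField F L]

theorem hasValue_mem_riemannRochSpace {D : Divisor F L} {f : L} {g : K}
    (hf : f ∈ riemannRochSpace D) (hfg : (gauss B).HasValue f g) :
    g ∈ riemannRochSpace (redDiv B D) := by
  rcases eq_or_ne g 0 with rfl | hg
  · exact zero_mem _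
  have hf0 := hfg.ne_zero hg
  have hnn : 0 ≤ D + divFun F f := Finsupp.le_def.mpr fun P => by
    have := ((mem_riemannRochSpace_iff.mp hf) P).resolve_left hf0
    simp only [Finsupp.add_apply, divFun_apply, Finsupp.zero_apply]
    omega
  have h := redDiv_nonneg (K := K) B hnn
  rw [map_add, redDiv_divFun B hfg hg] at h
  rw [mem_riemannRochSpace_iff]
  intro q
  right
  have := Finsupp.le_def.mp h q
  simp only [Finsupp.add_apply, divFun_apply, Finsupp.zero_apply] at this
  omega

/-- Semicontinuity of `l(D)`. -/
theorem ell_le_ell_redDiv (D : Divisor F L) : ell D ≤ ell (redDiv (K := K) B D) := by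
  obtain ⟨f, g, hfg, hli⟩ := exists_independent_residues (K := K) B (riemannRochSpace D)
  have hmem : ∀ i, g i ∈ riemannRochSpace (redDiv (K := K) B D) := fun i =>
    hasValue_mem_riemannRochSpace B (hfg i).1 (hfg i).2
  have h : LinearIndependent Ω fun i => (⟨g i, hmem i⟩ : riemannRochSpace (redDiv (K := K) B D)) :=
    LinearIndependent.of_comp (riemannRochSpace _).subtype hli
  simpa [ell] using h.fintype_card_le_finrank

end

end Fermat.Agent.ConstReduction
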