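import Fermat.Agent.ConstReduction.Regular
import Fermat.Agent.ConstReduction.Semicontinuity
import Fermat.Agent.ConstReduction.Extend

/-!
# Constant places of an extension of scalars

Every place of `K/Ω` has a unique place of the extension of scalars `L/F` over it, and that place
is unramified; degrees of functions and `l(D)` do not drop.
-/

set_option autoImplicit false

noncomputable section

open IntermediateField Polynomial AlgebraicCurve
open Fermat.Agent.FunctionField

namespace Fermat.Agent.ConstReduction

variable {Ω K F L : Type*} [Field Ω] [Field K] [Field F] [Field L] [Algebra Ω K] [Algebra Ω F]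
  [Algebra Ω L] [Algebra F L] [Algebra K L] [IsScalarTower Ω F L] [IsScalarTower Ω K L]
  [IsConstExt Ω K F L] [IsAlgClosed Ω] [IsAlgClosed F] [IsFunctionField Ω K]
  [IsFunctionField F L]

/-- `P` lies over the place `q` of `K`. -/
def IsConstPlace (P : Place F L) (q : Place Ω K) : Prop :=
  P.toValuationSubring.comap (algebraMap K L) = q.toValuationSubring

omit [Algebra Ω F] [IsScalarTower Ω F L] [IsConstExt Ω K F L] [IsAlgClosed Ω]
  [IsAlgClosed F] [IsFunctionField Ω K] [IsFunctionField F L] [Algebra Ω L]
  [IsScalarTower Ω K L] in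
theorem IsConstPlace.mem_iff {P : Place F L} {q : Place Ω K} (h : IsConstPlace P q) {x : K} :
    algebraMap K L x ∈ P.toValuationSubring ↔ x ∈ q.toValuationSubring := by
  rw [← h, ValuationSubring.mem_comap]

omit [Algebra Ω F] [IsScalarTower Ω F L] [IsConstExt Ω K F L] [IsAlgClosed Ω]
  [IsAlgClosed F] [IsFunctionField Ω K] [IsFunctionField F L] [Algebra Ω L]
  [IsScalarTower Ω K L] in
/-- The place of `K` below a place of `L` is unique. -/
theorem IsConstPlace.eq {P : Place F L} {q q' : Place Ω K} (h : IsConstPlace P q)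
    (h' : IsConstPlace P q') : q = q' := Place.ext (h.symm.trans h')

omit [IsConstExt Ω K F L] [IsAlgClosed Ω] [IsAlgClosed F] [IsFunctionField F L] in
variable (Ω) in
/-- A place of `L` at which some element of `K` has a zero or pole lies over a place of `K`. -/
theorem exists_isConstPlace_of_ord_ne_zero (P : Place F L) {x : K}
    (hx : P.ord (algebraMap K L x) ≠ 0) : ∃ q : Place Ω K, IsConstPlace P q := by
  have hne : P.toValuationSubring.comap (algebraMap K L) ≠ ⊤ := by
    intro htop
    have hall : ∀ y : K, algebraMap K L y ∈ P.toValuationSubring := fun y =>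
      ValuationSubring.mem_comap.mp (htop ▸ ValuationSubring.mem_top y)
    have h1 := ord_nonneg_of_mem P (hall x)
    have h2 := ord_nonneg_of_mem P (hall x⁻¹)
    rw [map_inv₀, P.ord_inv] at h2
    omega
  refine ⟨placeOfValuationSubring _ (fun a => ?_) hne, rfl⟩
  rw [ValuationSubring.mem_comap, ← IsScalarTower.algebraMap_apply,
    IsScalarTower.algebraMap_apply Ω F L]
  exact P.algebraMap_mem' _

omit [IsConstExt Ω K F L] [IsAlgClosed Ω] in
/-- A place over a place of `K` reduces to it. -/
theorem IsConstPlace.redPlace_eq {P : Place F L} {q : Place Ω K} (h : IsConstPlace P q)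
    (B : RatVal Ω F) : redPlace B P = q :=
  eq_of_le fun x hx => by
    obtain ⟨c, hc, -⟩ := (redPlace_mem_iff B P).mp hx
    exact h.mem_iff.mp hc.mem

/-- Every place of `K` has a place of `L` over it. -/
theorem exists_isConstPlace (q : Place Ω K) : ∃ P : Place F L, IsConstPlace P q := by
  classical
  obtain ⟨B⟩ := nonempty_ratVal (Ω := Ω) (F := F)
  obtain ⟨π, hπ0, hπ⟩ := exists_ord_eq q 1
  have h := congrArg (fun D : Divisor Ω K => D q)
    (redDiv_divFun B ((gauss (L := L) B).hasValue_algebraMap π) hπ0)
  simp only [divFun_apply, hπ, redDiv_apply_eq_sum] at h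
  obtain ⟨P, -, hP⟩ := Finset.exists_ne_zero_of_sum_ne_zero (h.trans_ne one_ne_zero)
  by_cases hPq : redPlace B P = q
  · rw [if_pos hPq] at hP
    obtain ⟨q', hq'⟩ := exists_isConstPlace_of_ord_ne_zero Ω P hP
    exact ⟨P, hPq ▸ (hq'.redPlace_eq B).symm ▸ hq'⟩
  · exact absurd (if_neg hPq) hP

omit [Algebra Ω F] [IsScalarTower Ω F L] [IsConstExt Ω K F L] [IsAlgClosed Ω]
  [IsAlgClosed F] [IsFunctionField Ω K] [IsFunctionField F L] [Algebra Ω L]
  [IsScalarTower Ω K L] in
theorem IsConstPlace.ord_pos {P : Place F L} {q : Place Ω K} (h : IsConstPlace P q) {x : K}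
    (hx0 : x ≠ 0) (hx : 0 < q.ord x) : 0 < P.ord (algebraMap K L x) := by
  rw [ord_pos_iff_inv_notMem _ hx0] at hx
  rwa [ord_pos_iff_inv_notMem _ (by simpa using hx0), ← map_inv₀, h.mem_iff]

omit [Algebra Ω F] [IsScalarTower Ω F L] [IsConstExt Ω K F L] [IsAlgClosed Ω]
  [IsAlgClosed F] [IsFunctionField Ω K] [IsFunctionField F L] [Algebra Ω L]
  [IsScalarTower Ω K L] in
theorem IsConstPlace.ord_eq_mul {P : Place F L} {q : Place Ω K} (h : IsConstPlace P q) {π : K}
    (hπ0 : π ≠ 0) (hπ : q.ord π = 1) {x : K} (hx : x ≠ 0) :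
    P.ord (algebraMap K L x) = q.ord x * P.ord (algebraMap K L π) := by
  have hu0 : x * π ^ (-q.ord x) ≠ 0 := mul_ne_zero hx (zpow_ne_zero _ hπ0)
  have huord : q.ord (x * π ^ (-q.ord x)) = 0 := by
    rw [q.ord_mul hx (zpow_ne_zero _ hπ0), q.ord_zpow, hπ]; ring
  have hmem : ∀ y : K, y ≠ 0 → q.ord y = 0 → 0 ≤ P.ord (algebraMap K L y) := fun y hy hy0 =>
    ord_nonneg_of_mem P (h.mem_iff.mpr ((mem_iff_adicValuation_le_one q).mpr
      (by rw [q.adicValuation_eq_exp_neg_ord hy, hy0]; simp)))
  have h1 := hmem _ hu0 huord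
  have h2 := hmem _ (inv_ne_zero hu0) (by rw [q.ord_inv, huord, neg_zero])
  rw [map_inv₀, P.ord_inv] at h2
  rw [map_mul, map_zpow₀, P.ord_mul (by simpa using hx) (zpow_ne_zero _ (by simpa using hπ0)),
    P.ord_zpow] at h1 h2
  linarith

omit [IsAlgClosed F] [IsFunctionField F L] in
variable (F L) in
/-- Functions of `K` keep their degree. -/
theorem degFun_algebraMap {x : K} (hx : Transcendental Ω x) :
    degFun F (algebraMap K L x) = degFun Ω x := by
  classical
  obtain ⟨B⟩ := nonempty_ratVal (Ω := Ω) (F := F)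
  have := IsFunctionField.finiteDimensional_adjoin x hx
  let b := Module.finBasis Ω⟮x⟯ K
  let bL := Module.Basis.mk (linearIndependent_basis (L := L) B hx b) (span_basis_eq_top F L b).ge
  rw [degFun, degFun, Module.finrank_eq_card_basis bL, Fintype.card_fin]

omit [IsAlgClosed F] [IsConstExt Ω K F L] [IsAlgClosed Ω] [IsFunctionField Ω K] [Algebra Ω F]
  [Algebra Ω L] [IsScalarTower Ω F L] [IsScalarTower Ω K L] in
theorem sum_zerosAt_ord [IsAlgClosed F] {x : L} (hx : Transcendental F x) :
    ∑ v ∈ zerosAt (x := x) (0 : F), v.ord x = degFun F x := by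
  classical
  rw [← degree_zeros hx, degree_eq_sum _ (zerosAt (x := x) (0 : F))]
  · refine Finset.sum_congr rfl fun v hv => ?_
    rw [mem_zerosAt, map_zero, sub_zero] at hv
    rw [Finsupp.sup_apply, divFun_apply, Finsupp.zero_apply, max_eq_left hv.le, deg_eq_one,
      Nat.cast_one, mul_one]
  · intro v hv
    rw [Finsupp.mem_support_iff, Finsupp.sup_apply, Finsupp.zero_apply, divFun_apply] at hv
    rw [mem_zerosAt, map_zero, sub_zero]
    omega

/-- The place over `q` is unique and unramified. -/
theorem IsConstPlace.unique {P P' : Place F L} {q : Place Ω K} (h : IsConstPlace P q)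
    (h' : IsConstPlace P' q) {π : K} (hπ : q.ord π = 1) :
    P' = P ∧ P.ord (algebraMap K L π) = 1 := by
  classical
  have hπ0 : π ≠ 0 := fun h0 => by simp [h0] at hπ
  have ht : Transcendental Ω π := transcendental_of_ord_ne_zero q (by omega)
  obtain ⟨B⟩ := nonempty_ratVal (Ω := Ω) (F := F)
  have htL : Transcendental F (algebraMap K L π) := transcendental_algebraMap B ht
  have hbelow : ∀ R ∈ zerosAt (x := algebraMap K L π) (0 : F), ∃ r : Place Ω K,
      IsConstPlace R r ∧ r ∈ zerosAt (x := π) (0 : Ω) := by
    intro R hR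
    rw [mem_zerosAt, map_zero, sub_zero] at hR
    obtain ⟨r, hr⟩ := exists_isConstPlace_of_ord_ne_zero Ω R hR.ne'
    refine ⟨r, hr, ?_⟩
    rw [mem_zerosAt, map_zero, sub_zero]
    rw [ord_pos_iff_inv_notMem _ (by simpa using hπ0), ← map_inv₀, hr.mem_iff] at hR
    rwa [ord_pos_iff_inv_notMem _ hπ0]
  obtain ⟨below, hb⟩ : ∃ below : Place F L → Place Ω K,
      ∀ R ∈ zerosAt (x := algebraMap K L π) (0 : F),
        IsConstPlace R (below R) ∧ below R ∈ zerosAt (x := π) (0 : Ω) := by
    refine ⟨fun R => if hR : R ∈ zerosAt (x := algebraMap K L π) (0 : F) then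
      (hbelow R hR).choose else q, fun R hR => ?_⟩
    simp only [dif_pos hR]
    exact (hbelow R hR).choose_spec
  set fib := fun r => (zerosAt (x := algebraMap K L π) (0 : F)).filter fun R => below R = r
  have hsum : ∑ r ∈ zerosAt (x := π) (0 : Ω), ∑ R ∈ fib r, R.ord (algebraMap K L π) =
      ∑ r ∈ zerosAt (x := π) (0 : Ω), r.ord π := by
    rw [Finset.sum_fiberwise_of_maps_to (fun R hR => (hb R hR).2), sum_zerosAt_ord htL,
      sum_zerosAt_ord ht, degFun_algebraMap F L ht]
  have hge : ∀ r ∈ zerosAt (x := π) (0 : Ω), r.ord π ≤ ∑ R ∈ fib r, R.ord (algebraMap K L π) := by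
    intro r hr
    rw [mem_zerosAt, map_zero, sub_zero] at hr
    obtain ⟨R, hR⟩ := exists_isConstPlace (F := F) (L := L) r
    have hRpos := hR.ord_pos hπ0 hr
    have hRZ : R ∈ zerosAt (x := algebraMap K L π) (0 : F) := by
      rwa [mem_zerosAt, map_zero, sub_zero]
    have hbR : below R = r := (hb R hRZ).1.eq hR
    refine le_trans ?_ (Finset.single_le_sum (fun S hS => ?_)
      (Finset.mem_filter.mpr ⟨hRZ, hbR⟩ : R ∈ fib r))
    · obtain ⟨ρ, hρ0, hρ⟩ := exists_ord_eq r 1
      have hρpos := hR.ord_pos hρ0 (hρ ▸ one_pos)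
      rw [hR.ord_eq_mul hρ0 hρ hπ0]
      exact le_mul_of_one_le_right hr.le hρpos
    · have := (mem_zerosAt (0 : F)).mp (Finset.mem_filter.mp hS).1
      rw [map_zero, sub_zero] at this
      exact this.le
  have heq := (Finset.sum_eq_sum_iff_of_le hge).mp hsum.symm
  have hq : q ∈ zerosAt (x := π) (0 : Ω) := by
    rw [mem_zerosAt, map_zero, sub_zero, hπ]; exact one_pos
  have hmem : ∀ R, IsConstPlace R q → R ∈ fib q ∧ 0 < R.ord (algebraMap K L π) := fun R hR => by
    have hpos := hR.ord_pos hπ0 (hπ ▸ one_pos)
    have hRZ : R ∈ zerosAt (x := algebraMap K L π) (0 : F) := by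
      rwa [mem_zerosAt, map_zero, sub_zero]
    exact ⟨Finset.mem_filter.mpr ⟨hRZ, (hb R hRZ).1.eq hR⟩, hpos⟩
  have htot : ∑ R ∈ fib q, R.ord (algebraMap K L π) = 1 := (heq q hq).symm.trans hπ
  have hnn : ∀ R ∈ fib q, 0 ≤ R.ord (algebraMap K L π) := fun R hR => by
    have := (mem_zerosAt (0 : F)).mp (Finset.mem_filter.mp hR).1
    rw [map_zero, sub_zero] at this
    exact this.le
  obtain ⟨hP, hPpos⟩ := hmem P h
  obtain ⟨hP', hP'pos⟩ := hmem P' h'
  have h1 := Finset.single_le_sum hnn hP
  refine ⟨?_, by omega⟩
  by_contra hne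
  have h2 := Finset.sum_le_sum_of_subset_of_nonneg (Finset.insert_subset hP'
    (Finset.singleton_subset_iff.mpr hP)) (fun R hR _ => hnn R hR)
  rw [Finset.sum_pair hne, htot] at h2
  omega

/-- The place of `L` over a place of `K`. -/
def constPlace (q : Place Ω K) : Place F L := (exists_isConstPlace q).choose

theorem isConstPlace_constPlace (q : Place Ω K) :
    IsConstPlace (constPlace q : Place F L) q := (exists_isConstPlace q).choose_spec

/-- The only place over `q` is `constPlace q`. -/
theorem IsConstPlace.eq_constPlace {P : Place F L} {q : Place Ω K} (h : IsConstPlace P q) :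
    P = constPlace q := by
  obtain ⟨π, -, hπ⟩ := exists_ord_eq q 1
  exact ((isConstPlace_constPlace q).unique h hπ).1

theorem constPlace_injective : Function.Injective (constPlace : Place Ω K → Place F L) :=
  fun q q' h => (isConstPlace_constPlace q).eq (h ▸ isConstPlace_constPlace q')

@[simp]
theorem redPlace_constPlace (B : RatVal Ω F) (q : Place Ω K) :
    redPlace B (constPlace q : Place F L) = q :=
  (isConstPlace_constPlace q).redPlace_eq B

@[simp]
theorem ord_constPlace (q : Place Ω K) (x : K) :
    (constPlace q : Place F L).ord (algebraMap K L x) = q.ord x := by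
  rcases eq_or_ne x 0 with rfl | hx
  · simp
  obtain ⟨π, hπ0, hπ⟩ := exists_ord_eq q 1
  have h := isConstPlace_constPlace (F := F) (L := L) q
  rw [h.ord_eq_mul hπ0 hπ hx, (h.unique h hπ).2, mul_one]

theorem ord_eq_zero_of_notMem_range {P : Place F L}
    (hP : P ∉ Set.range (constPlace : Place Ω K → Place F L)) (x : K) :
    P.ord (algebraMap K L x) = 0 := by
  by_contra hne
  obtain ⟨q, hq⟩ := exists_isConstPlace_of_ord_ne_zero Ω P hne
  exact hP ⟨q, hq.eq_constPlace.symm⟩

/-- The value at a constant place of a function of `K` is its value at the place of `K`. -/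
theorem valueAt_constPlace {q : Place Ω K} {x : K} {a : Ω} (h : (valueAt q).HasValue x a) :
    (valueAt (constPlace q : Place F L)).HasValue (algebraMap K L x) (algebraMap Ω F a) := by
  obtain ⟨B⟩ := nonempty_ratVal (Ω := Ω) (F := F)
  obtain ⟨c, hc⟩ := (valueAt (constPlace q : Place F L)).exists_hasValue
    ((isConstPlace_constPlace q).mem_iff.mpr h.mem)
  suffices hz : (valueAt (constPlace q : Place F L)).HasValue
      (algebraMap K L (x - algebraMap Ω K a)) 0 by
    have := hz.add ((valueAt (constPlace q : Place F L)).hasValue_algebraMap (algebraMap Ω F a))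
    simpa [← IsScalarTower.algebraMap_apply] using this
  rcases eq_or_ne (x - algebraMap Ω K a) 0 with h0 | h0
  · rw [h0, map_zero]; exact RatVal.hasValue_zero _
  rw [valueAt_hasValue_zero_iff _
    (fun h' => h0 ((algebraMap K L).injective (by rw [h', map_zero]))), ord_constPlace,
    ← valueAt_hasValue_zero_iff _ h0]
  simpa using h.sub ((valueAt q).hasValue_algebraMap a)

/-- The extension of constants on divisors. -/
def constDiv : Divisor Ω K →+ Divisor F L := Finsupp.mapDomain.addMonoidHom constPlace

/-- `constDiv` moves the coefficients along `constPlace`. -/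
theorem constDiv_apply (D : Divisor Ω K) :
    (constDiv D : Divisor F L) = Finsupp.mapDomain constPlace D := rfl

@[simp]
theorem constDiv_apply_constPlace (D : Divisor Ω K) (q : Place Ω K) :
    (constDiv D : Divisor F L) (constPlace q) = D q :=
  Finsupp.mapDomain_apply constPlace_injective D q

theorem constDiv_apply_of_notMem_range (D : Divisor Ω K) {P : Place F L}
    (hP : P ∉ Set.range (constPlace : Place Ω K → Place F L)) : constDiv D P = 0 :=
  Finsupp.mapDomain_of_notMem_range D P hP

/-- `constDiv` preserves degrees. -/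
theorem degree_constDiv (D : Divisor Ω K) :
    Divisor.degree (constDiv D : Divisor F L) = Divisor.degree D := by
  induction D using Finsupp.induction with
  | zero => simp
  | single_add q n D _ _ ih =>
    rw [map_add, map_add, map_add, ih, constDiv_apply, Finsupp.mapDomain_single,
      Divisor.degree_single, Divisor.degree_single, deg_eq_one, deg_eq_one]

/-- The reduction of a constant divisor is the divisor itself. -/
theorem redDiv_constDiv (B : RatVal Ω F) (D : Divisor Ω K) :
    redDiv B (constDiv D : Divisor F L) = D := by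
  rw [constDiv_apply, redDiv_apply, ← Finsupp.mapDomain_comp]
  exact (Finsupp.mapDomain_congr fun q _ => redPlace_constPlace B q).trans Finsupp.mapDomain_id

theorem algebraMap_mem_riemannRochSpace {D : Divisor Ω K} {x : K} (hx : x ∈ riemannRochSpace D) :
    algebraMap K L x ∈ riemannRochSpace (constDiv D : Divisor F L) := by
  rcases eq_or_ne x 0 with rfl | hx0
  · simp
  rw [mem_riemannRochSpace_iff]
  intro P
  right
  by_cases hP : P ∈ Set.range (constPlace : Place Ω K → Place F L)
  · obtain ⟨q, rfl⟩ := hP
    rw [ord_constPlace, constDiv_apply_constPlace]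
    exact ((mem_riemannRochSpace_iff.mp hx) q).resolve_left hx0
  · rw [ord_eq_zero_of_notMem_range hP, constDiv_apply_of_notMem_range D hP, neg_zero]

variable (F L) in
theorem ell_le_ell_constDiv (D : Divisor Ω K) : ell D ≤ ell (constDiv D : Divisor F L) := by
  let b := Module.finBasis Ω (riemannRochSpace D)
  have h1 : LinearIndependent F fun i => algebraMap K L (b i : K) :=
    linearIndependent_image (Ω := Ω)
      (b.linearIndependent.map' (riemannRochSpace D).subtype (Submodule.ker_subtype _))
  have h2 : LinearIndependent F fun i =>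
      (⟨algebraMap K L (b i : K), algebraMap_mem_riemannRochSpace (b i).2⟩ :
        riemannRochSpace (constDiv D : Divisor F L)) :=
    LinearIndependent.of_comp (riemannRochSpace _).subtype h1
  simpa [ell] using h2.fintype_card_le_finrank

variable (F L) in
theorem ell_constDiv (D : Divisor Ω K) : ell (constDiv D : Divisor F L) = ell D := by
  obtain ⟨B⟩ := nonempty_ratVal (Ω := Ω) (F := F)
  refine le_antisymm ?_ (ell_le_ell_constDiv F L D)
  simpa [redDiv_constDiv] using ell_le_ell_redDiv (K := K) B (constDiv D : Divisor F L)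

variable (Ω K F L) in
/-- An extension of scalars has the same genus. -/
theorem genusFF_eq : genusFF F L = genusFF Ω K := by
  obtain ⟨q⟩ := nonempty_place Ω K
  obtain ⟨c, hc⟩ := exists_index_eq_zero (K := F) (F := L)
  obtain ⟨c', hc'⟩ := exists_index_eq_zero (K := Ω) (F := K)
  set D := Finsupp.single q (max c c')
  have hdeg : Divisor.degree D = max c c' := by
    rw [Divisor.degree_single, deg_eq_one, Nat.cast_one, mul_one]
  have h1 := riemann_roch (constDiv D : Divisor F L)
  have h2 := riemann_roch D
  rw [hc' D (by rw [hdeg]; exact le_max_right _ _)] at h2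
  rw [hc (constDiv D) (by rw [degree_constDiv, hdeg]; exact le_max_left _ _), degree_constDiv,
    ell_constDiv F L] at h1
  omega

end Fermat.Agent.ConstReduction
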