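import Fermat.Agent.ConstReduction.Norm
import Fermat.Agent.FunctionField.Approx

/-!
# The lemma of Deuring for a constant curve

The reduction of the divisor of a Gauss-integral function with nonzero residue is the divisor of
its residue.
-/

set_option autoImplicit false

noncomputable section

open IntermediateField Polynomial AlgebraicCurve
open Fermat.Agent.FunctionField

namespace Fermat.Agent.ConstReduction

/-- A function with prescribed orders at finitely many places. -/
theorem exists_ord_eq_of_finset {K L : Type*} [Field K] [Field L] [Algebra K L]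
    (S : Finset (Place K L)) (n : Place K L → ℤ) (hS : S.Nonempty) :
    ∃ z : L, z ≠ 0 ∧ ∀ v ∈ S, v.ord z = n v := by
  choose a ha0 ha using fun v : Place K L => exists_ord_eq v (n v)
  obtain ⟨z, hz⟩ := approximation S a (fun v => -(v.ord (a v)) - 1)
  have hzv : ∀ v ∈ S, v.adicValuation z = v.adicValuation (a v) := fun v hv => by
    have hlt : v.adicValuation (z - a v) < v.adicValuation (a v) := by
      rw [v.adicValuation_eq_exp_neg_ord (ha0 v)]
      exact (hz v hv).trans_lt (WithZero.exp_lt_exp.mpr (by omega))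
    simpa using Valuation.map_add_eq_of_lt_left _ hlt
  obtain ⟨u, hu⟩ := hS
  refine ⟨z, fun h0 => ?_, fun v hv => ?_⟩
  · have := hzv u hu
    simp only [h0, map_zero] at this
    exact u.adicValuation_ne_zero (ha0 u) this.symm
  · rw [← ha v, Place.ord, Place.ord, hzv v hv]

section Roots

variable {Ω F : Type*} [Field Ω] [Field F] [Algebra Ω F] (B : RatVal Ω F)

open Classical in
/-- Roots of the reduction at `0` count the roots lying in the maximal ideal. -/
theorem exists_normalised_prod (s : Multiset F) :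
    ∃ c : F, c ≠ 0 ∧ ∃ p' : B.ring[X],
      (s.map fun r => X - C r).prod = C c * p'.map B.ring.subtype ∧ p'.map B.red ≠ 0 ∧
        (p'.map B.red).rootMultiplicity 0 = s.countP (fun r => B.HasValue r 0) := by
  induction s using Multiset.induction_on with
  | empty => exact ⟨1, one_ne_zero, 1, by simp, by simp, by simp⟩
  | cons r s ih =>
    obtain ⟨c, hc, p', hp, hp0, hpm⟩ := ih
    rw [Multiset.map_cons, Multiset.prod_cons, hp, Multiset.countP_cons]
    by_cases hr : r ∈ B.ring
    · have hmap : ((X - C (⟨r, hr⟩ : B.ring)) * p').map B.red =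
          (X - C (B.red ⟨r, hr⟩)) * p'.map B.red := by
        simp
      refine ⟨c, hc, (X - C ⟨r, hr⟩) * p', by simp; ring, ?_, ?_⟩
      · rw [hmap]; exact mul_ne_zero (X_sub_C_ne_zero _) hp0
      · rw [hmap, rootMultiplicity_mul (mul_ne_zero (X_sub_C_ne_zero _) hp0), hpm,
          rootMultiplicity_X_sub_C, add_comm]
        have : B.HasValue r 0 ↔ 0 = B.red ⟨r, hr⟩ :=
          ⟨fun h => h.unique ⟨hr, rfl⟩, fun h => ⟨hr, h.symm⟩⟩
        by_cases h0 : B.HasValue r 0
        · rw [if_pos h0, if_pos (this.mp h0)]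
        · rw [if_neg h0, if_neg (this.not.mp h0)]
    · obtain ⟨hm, hred⟩ := RatVal.hasValue_inv_zero hr
      have hr0 : r ≠ 0 := fun h => hr (h ▸ zero_mem _)
      have hmap : ((C (⟨r⁻¹, hm⟩ : B.ring) * X - 1) * p').map B.red = C (-1) * p'.map B.red := by
        simp [hred]
      refine ⟨c * r, mul_ne_zero hc hr0, (C ⟨r⁻¹, hm⟩ * X - 1) * p', ?_, ?_, ?_⟩
      · simp only [Polynomial.map_mul, Polynomial.map_sub, Polynomial.map_one, map_X, map_C]
        show _ = C (c * r) * ((C r⁻¹ * X - 1) * _)
        have : C r * C r⁻¹ = (1 : F[X]) := by rw [← map_mul, mul_inv_cancel₀ hr0, map_one]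
        rw [map_mul]
        linear_combination (-(C c * X * p'.map B.ring.subtype)) * this
      · rw [hmap]; exact mul_ne_zero (by simp) hp0
      · rw [hmap, rootMultiplicity_mul (mul_ne_zero (by simp) hp0), hpm, rootMultiplicity_C,
          zero_add, if_neg (fun h => hr h.mem), add_zero]

theorem sum_rootMultiplicity_eq [IsAlgClosed F] {p : F[X]} {c : F} {p' : B.ring[X]}
    (hc : c ≠ 0) (hp : p = C c * p'.map B.ring.subtype) (hp' : p'.map B.red ≠ 0) (T : Finset F)
    (hT : ∀ r ∈ T, B.HasValue r 0) (hTp : ∀ r ∈ p.roots, B.HasValue r 0 → r ∈ T) :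
    ∑ r ∈ T, p.rootMultiplicity r = (p'.map B.red).rootMultiplicity 0 := by
  classical
  have hp0 : p ≠ 0 := by
    rw [hp]
    refine mul_ne_zero (by simpa using hc) ?_
    rw [Polynomial.map_ne_zero_iff Subtype.val_injective]
    rintro rfl
    simp at hp'
  obtain ⟨d, hd, q', hq, hq0, hqm⟩ := exists_normalised_prod B p.roots
  have hfac : C p.leadingCoeff * (C d * q'.map B.ring.subtype) = C c * p'.map B.ring.subtype := by
    rw [← hq, ← hp]
    exact C_leadingCoeff_mul_prod_multiset_X_sub_C (IsAlgClosed.card_roots_eq_natDegree (p := p))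
  obtain ⟨e₀, he₀, he⟩ := normalised_unique B (e := c⁻¹ * (p.leadingCoeff * d)) (by
    rw [map_mul, mul_assoc, map_mul, mul_assoc, hfac, ← mul_assoc, ← map_mul,
      inv_mul_cancel₀ hc, map_one, one_mul]) hq0 hp'
  rw [he, rootMultiplicity_mul (mul_ne_zero (by simpa using he₀) hq0), rootMultiplicity_C,
    zero_add, hqm, Multiset.countP_eq_card_filter]
  rw [← Multiset.toFinset_sum_count_eq]
  have hsub : (p.roots.filter fun r => B.HasValue r 0).toFinset ⊆ T := fun r hr => by
    rw [Multiset.mem_toFinset, Multiset.mem_filter] at hr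
    exact hTp r hr.1 hr.2
  rw [Finset.sum_subset hsub fun r _ h => by simpa [Multiset.count_eq_zero] using h]
  refine Finset.sum_congr rfl fun r hr => ?_
  rw [Multiset.count_filter_of_pos (p := fun r => B.HasValue r 0) (hT r hr), count_roots]

end Roots

section

variable {Ω K F L : Type*} [Field Ω] [Field K] [Field F] [Field L] [Algebra Ω K] [Algebra Ω F]
  [Algebra Ω L] [Algebra F L] [Algebra K L] [IsScalarTower Ω F L] [IsScalarTower Ω K L]
  [IsConstExt Ω K F L] [IsAlgClosed Ω] [IsAlgClosed F] [IsFunctionField Ω K]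
  [IsFunctionField F L] (B : RatVal Ω F)

/-- The reduction of divisors. -/
def redDiv : Divisor F L →+ Divisor Ω K := Finsupp.mapDomain.addMonoidHom (redPlace B)

omit [IsConstExt Ω K F L] [IsAlgClosed Ω] in
/-- `redDiv` moves the coefficients along `redPlace`. -/
theorem redDiv_apply (D : Divisor F L) :
    redDiv (K := K) B D = Finsupp.mapDomain (redPlace B) D := rfl

omit [IsConstExt Ω K F L] in
/-- Reduction preserves the degree of divisors. -/
theorem degree_redDiv (D : Divisor F L) :
    Divisor.degree (redDiv (K := K) B D) = Divisor.degree D := by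
  induction D using Finsupp.induction with
  | zero => simp
  | single_add P n D _ _ ih =>
    rw [map_add, map_add, map_add, ih, redDiv_apply, Finsupp.mapDomain_single,
      Divisor.degree_single, Divisor.degree_single, deg_eq_one, deg_eq_one P]

omit [IsConstExt Ω K F L] [IsAlgClosed Ω] in
/-- Reduction preserves effective divisors. -/
theorem redDiv_nonneg {D : Divisor F L} (h : 0 ≤ D) : 0 ≤ redDiv (K := K) B D := by
  classical
  rw [redDiv_apply, Finsupp.mapDomain, Finsupp.sum]
  refine Finset.sum_nonneg fun P _ => ?_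
  exact Finsupp.single_nonneg.mpr (h P)

/-- Deuring's lemma. -/
theorem redDiv_divFun {f : L} {g : K} (hfg : (gauss B).HasValue f g) (hg : g ≠ 0) :
    redDiv B (divFun F f) = divFun Ω g := by
  classical
  by_contra hne
  set E := redDiv B (divFun F f) - divFun Ω g
  obtain ⟨q, hq⟩ : E.support.Nonempty :=
    Finsupp.support_nonempty_iff.mpr (sub_ne_zero.mpr hne)
  obtain ⟨t₀, ht0, ht⟩ := exists_ord_eq_of_finset E.support
    (fun v => if v = q then 1 else 0) ⟨q, hq⟩
  have hqt : 0 < q.ord t₀ := by simp [ht q hq]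
  have ht₀ : Transcendental Ω t₀ := transcendental_of_ord_ne_zero q hqt.ne'
  suffices hZ : ∑ v ∈ zerosAt (x := t₀) (0 : Ω), E v = 0 by
    refine Finsupp.mem_support_iff.mp hq (Eq.trans ?_ hZ)
    refine (Finset.sum_eq_single q (fun v hv hvq => ?_) fun h => ?_).symm
    · by_contra hE
      have h1 := (mem_zerosAt (0 : Ω)).mp hv
      rw [map_zero, sub_zero, ht v (Finsupp.mem_support_iff.mpr hE), if_neg hvq] at h1
      exact lt_irrefl _ h1
    · exact absurd ((mem_zerosAt (0 : Ω)).mpr (by simpa using hqt)) h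
  have hf : f ≠ 0 := hfg.ne_zero hg
  set t : L := algebraMap K L t₀
  have htL : Transcendental F t := transcendental_algebraMap B ht₀
  have := IsFunctionField.finiteDimensional_adjoin t htL
  have := IsFunctionField.finiteDimensional_adjoin t₀ ht₀
  have hN := norm_hasValue B ht₀ hfg
  have hNg : ((Algebra.norm Ω⟮t₀⟯ g : Ω⟮t₀⟯) : K) ≠ 0 := by
    simpa using (Algebra.norm_ne_zero_iff (R := Ω⟮t₀⟯)).mpr hg
  obtain ⟨p, q', hpq⟩ := (mem_adjoin_simple_iff F _).mp (Algebra.norm F⟮t⟯ f).2
  have hp : p ≠ 0 := by rintro rfl; exact hN.ne_zero hNg (by rw [hpq]; simp)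
  have hq' : q' ≠ 0 := by rintro rfl; exact hN.ne_zero hNg (by rw [hpq]; simp)
  obtain ⟨c, hc, pV, hpc, hpV⟩ := exists_normalised B hp
  obtain ⟨d, hd, qV, hqd, hqV⟩ := exists_normalised B hq'
  set P₀ := pV.map B.red
  set Q₀ := qV.map B.red
  have hu := (gauss_hasValue_aeval (L := L) B t₀ pV).mul
    ((gauss_hasValue_aeval (L := L) B t₀ qV).inv (aeval_ne_zero_of_transcendental ht₀ hqV))
  have hu0 : aeval t₀ P₀ * (aeval t₀ Q₀)⁻¹ ≠ 0 := mul_ne_zero
    (aeval_ne_zero_of_transcendental ht₀ hpV)
    (inv_ne_zero (aeval_ne_zero_of_transcendental ht₀ hqV))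
  rw [show ((Algebra.norm F⟮t⟯ f : F⟮t⟯) : L) = algebraMap F L (c / d) *
      (aeval t (pV.map B.ring.subtype) * (aeval t (qV.map B.ring.subtype))⁻¹) by
    rw [hpq, hpc, hqd, map_mul, map_mul, aeval_C, aeval_C, map_div₀]; ring] at hN
  have hcd : c / d ∈ B.ring := mem_of_algebraMap_mem_gauss (K := K) (L := L) B (by
    have := mul_mem hN.mem (hu.inv hu0).mem
    rwa [mul_assoc, mul_inv_cancel₀ (hu.ne_zero hu0), mul_one] at this)
  obtain ⟨e, he⟩ := B.exists_hasValue hcd
  have hval := hN.unique ((gauss_hasValue_algebraMap B he).mul hu)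
  have he0 : e ≠ 0 := fun h => hNg (by rw [hval, h, map_zero, zero_mul])
  have hK : ((Algebra.norm Ω⟮t₀⟯ g : Ω⟮t₀⟯) : K) = aeval t₀ (C e * P₀) / aeval t₀ Q₀ := by
    rw [hval, map_mul, aeval_C]; ring
  have hR : ∑ v ∈ zerosAt (x := t₀) (0 : Ω), v.ord g =
      (P₀.rootMultiplicity 0 : ℤ) - Q₀.rootMultiplicity 0 := by
    rw [sum_ord_eq_rootMultiplicity ht₀ hg (mul_ne_zero (by simpa using he0) hpV) hqV hK,
      rootMultiplicity_mul (mul_ne_zero (by simpa using he0) hpV), rootMultiplicity_C, zero_add]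
  -- the points with small value of `t`
  have hsmall : ∀ P : Place F L, redPlace B P ∈ zerosAt (x := t₀) (0 : Ω) ↔
      ∃ r, P ∈ zerosAt (x := t) r ∧ B.HasValue r 0 := by
    intro P
    rw [mem_zerosAt, map_zero, sub_zero, redPlace_ord_pos_iff B P (fun h => by simp [h] at hqt)]
    simp only [← valueAt_hasValue_iff P htL, t]
  choose! ρ hρ1 hρ2 using fun P h => (hsmall P).mp h
  set D := divFun F f
  let T : Finset F := (p.roots.toFinset ∪ q'.roots.toFinset ∪
    ((D.support.filter fun P => redPlace B P ∈ zerosAt (x := t₀) (0 : Ω)).image ρ)).filter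
      fun r => B.HasValue r 0
  have hT : ∀ r ∈ T, B.HasValue r 0 := fun r h => (Finset.mem_filter.mp h).2
  have hL : ∑ v ∈ zerosAt (x := t₀) (0 : Ω), redDiv B D v =
      ∑ r ∈ T, ∑ v ∈ zerosAt (x := t) r, D v := by
    have h1 : ∑ v ∈ zerosAt (x := t₀) (0 : Ω), redDiv B D v =
        ∑ P ∈ D.support, if redPlace B P ∈ zerosAt (x := t₀) (0 : Ω) then D P else 0 := by
      simp only [redDiv_apply, Finsupp.mapDomain, Finsupp.sum, Finsupp.finsetSum_apply]
      rw [Finset.sum_comm]
      simp only [Finsupp.single_apply, Finset.sum_ite_eq]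
    have h2 : ∀ r, ∑ v ∈ zerosAt (x := t) r, D v =
        ∑ P ∈ D.support, if P ∈ zerosAt (x := t) r then D P else 0 := fun r => by
      rw [← Finset.sum_filter]
      refine (Finset.sum_subset (fun P h => (Finset.mem_filter.mp h).2) fun P h hn => ?_).symm
      by_contra hne
      exact hn (Finset.mem_filter.mpr ⟨Finsupp.mem_support_iff.mpr hne, h⟩)
    simp only [h2]
    rw [h1, Finset.sum_comm]
    refine Finset.sum_congr rfl fun P hP => ?_
    by_cases hPZ : redPlace B P ∈ zerosAt (x := t₀) (0 : Ω)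
    · rw [if_pos hPZ, Finset.sum_eq_single (ρ P), if_pos (hρ1 P hPZ)]
      · intro r _ hr
        refine if_neg fun h => hr ?_
        exact ((valueAt_hasValue_iff P htL r).mpr h).unique
          ((valueAt_hasValue_iff P htL (ρ P)).mpr (hρ1 P hPZ))
      · intro h
        refine absurd (Finset.mem_filter.mpr ⟨Finset.mem_union_right _
          (Finset.mem_image_of_mem ρ (Finset.mem_filter.mpr ⟨hP, hPZ⟩)), hρ2 P hPZ⟩) h
    · rw [if_neg hPZ, Finset.sum_eq_zero]
      intro r hr
      exact if_neg fun h => hPZ ((hsmall P).mpr ⟨r, h, hT r hr⟩)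
  have hsum : ∀ r : F, ∑ v ∈ zerosAt (x := t) r, D v =
      (p.rootMultiplicity r : ℤ) - q'.rootMultiplicity r := fun r => by
    simp only [D, divFun_apply]
    exact sum_ord_eq_rootMultiplicity htL hf hp hq' hpq
  have hTmem : ∀ r, r ∈ p.roots.toFinset ∪ q'.roots.toFinset → B.HasValue r 0 → r ∈ T :=
    fun r hr h => Finset.mem_filter.mpr ⟨Finset.mem_union_left _ hr, h⟩
  simp only [E, Finsupp.sub_apply, Finset.sum_sub_distrib, divFun_apply]
  rw [hR, hL, Finset.sum_congr rfl fun r _ => hsum r, Finset.sum_sub_distrib, ← Nat.cast_sum,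
    ← Nat.cast_sum,
    sum_rootMultiplicity_eq B hc hpc hpV T hT fun r hr => hTmem r
      (Finset.mem_union_left _ (Multiset.mem_toFinset.mpr hr)),
    sum_rootMultiplicity_eq B hd hqd hqV T hT fun r hr => hTmem r
      (Finset.mem_union_right _ (Multiset.mem_toFinset.mpr hr))]
  simp [P₀, Q₀]

/-- The reduction of a principal divisor is principal. -/
theorem exists_redDiv_divFun_eq {f : L} (hf : f ≠ 0) :
    ∃ g : K, g ≠ 0 ∧ redDiv B (divFun F f) = divFun Ω g := by
  obtain ⟨c, hc, g, hg, h⟩ := exists_const_mul_hasValue (K := K) B hf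
  refine ⟨g, hg, ?_⟩
  rw [← redDiv_divFun B h hg]
  congr 1
  ext P
  rw [divFun_apply, divFun_apply, P.ord_mul (by simpa using hc) hf, ord_algebraMap P c, zero_add]

end

end Fermat.Agent.ConstReduction
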