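import Fermat.Agent.ConstReduction.Gauss
import Fermat.Agent.FunctionField.Curve
import Mathlib.Algebra.BigOperators.Field

/-!
# The norm and the Gauss reduction

The norm to `F(t)`, for `t` in `K`, is compatible with the Gauss reduction.
-/

set_option autoImplicit false

noncomputable section

open IntermediateField Polynomial AlgebraicCurve
open Fermat.Agent.FunctionField

namespace Fermat.Agent.ConstReduction

section Poly

variable {Ω F : Type*} [Field Ω] [Field F] [Algebra Ω F] (B : RatVal Ω F)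

/-- A nonzero polynomial is a constant times an integral one with nonzero reduction. -/
theorem exists_normalised {p : F[X]} (hp : p ≠ 0) :
    ∃ c : F, c ≠ 0 ∧ ∃ p' : B.ring[X], p = C c * p'.map B.ring.subtype ∧ p'.map B.red ≠ 0 := by
  obtain ⟨j, hj, hj0, hdiv⟩ := exists_max_ne_zero B p.support p.coeff
    (natDegree_mem_support_of_nonzero hp) (leadingCoeff_ne_zero.mpr hp)
  have hlift : C (p.coeff j)⁻¹ * p ∈ lifts B.ring.subtype := by
    rw [lifts_iff_coeff_lifts]
    intro n
    rw [coeff_C_mul, inv_mul_eq_div]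
    rcases eq_or_ne (p.coeff n) 0 with h | h
    · exact ⟨0, by simp [h]⟩
    · exact ⟨⟨_, hdiv n (mem_support_iff.mpr h)⟩, rfl⟩
  obtain ⟨p', hp'⟩ := hlift
  simp only [coe_mapRingHom] at hp'
  refine ⟨p.coeff j, hj0, p', ?_, fun h0 => ?_⟩
  · rw [hp', ← mul_assoc, ← map_mul, mul_inv_cancel₀ hj0, map_one, one_mul]
  · have h1 : (p'.coeff j : F) = 1 := by
      simpa [coeff_C_mul, inv_mul_cancel₀ hj0] using congrArg (fun q => q.coeff j) hp'
    have h2 : B.HasValue 1 0 := ⟨one_mem _, by
      rw [show (⟨1, one_mem _⟩ : B.ring) = p'.coeff j from Subtype.ext h1.symm]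
      simpa using congrArg (fun q => q.coeff j) h0⟩
    exact one_ne_zero (B.hasValue_one.unique h2)

/-- Normalisations are unique up to a unit. -/
theorem normalised_unique {e : F} {a b : B.ring[X]}
    (h : C e * a.map B.ring.subtype = b.map B.ring.subtype) (ha : a.map B.red ≠ 0)
    (hb : b.map B.red ≠ 0) : ∃ e₀ : Ω, e₀ ≠ 0 ∧ b.map B.red = C e₀ * a.map B.red := by
  have hinj := Polynomial.map_injective B.ring.subtype Subtype.val_injective
  by_cases he : e ∈ B.ring
  · have : b = C ⟨e, he⟩ * a := hinj (by rw [← h, Polynomial.map_mul, map_C]; rfl)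
    rw [this, Polynomial.map_mul, map_C] at hb ⊢
    exact ⟨_, fun h0 => hb (by rw [h0, map_zero, zero_mul]), rfl⟩
  · obtain ⟨hm, hred⟩ := RatVal.hasValue_inv_zero he
    have he0 : e ≠ 0 := fun h0 => he (h0 ▸ zero_mem _)
    have : a = C ⟨e⁻¹, hm⟩ * b := hinj (by
      rw [Polynomial.map_mul, map_C, ← h]
      show _ = C e⁻¹ * _
      rw [← mul_assoc, ← map_mul, inv_mul_cancel₀ he0, map_one, one_mul])
    exact absurd (by rw [this, Polynomial.map_mul, map_C, hred, map_zero, zero_mul]) ha

end Poly

section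

variable {Ω K F L : Type*} [Field Ω] [Field K] [Field F] [Field L] [Algebra Ω K] [Algebra Ω F]
  [Algebra Ω L] [Algebra F L] [Algebra K L] [IsScalarTower Ω F L] [IsScalarTower Ω K L]
  [IsConstExt Ω K F L] (B : RatVal Ω F) {t₀ : K} (ht₀ : Transcendental Ω t₀)

local notation "tL" => algebraMap K L t₀

include ht₀ B in
/-- A transcendental element of `K` stays transcendental over `F`. -/
theorem transcendental_algebraMap : Transcendental F (tL : L) := by
  rw [transcendental_iff]
  intro p hp
  by_contra hp0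
  obtain ⟨c, hc, p', rfl, hp'⟩ := exists_normalised B hp0
  rw [map_mul, aeval_C, mul_eq_zero, or_iff_right (by simpa using hc)] at hp
  exact ((gauss_hasValue_aeval (L := L) B t₀ p').ne_zero
    (aeval_ne_zero_of_transcendental ht₀ hp')) hp

omit [IsConstExt Ω K F L] in
variable (F) in
/-- `Ω(t₀)` maps into `F(t)`. -/
theorem algebraMap_mem_adjoin (r : Ω⟮t₀⟯) : algebraMap K L r ∈ F⟮(tL : L)⟯ := by
  obtain ⟨p, q, h⟩ := (mem_adjoin_simple_iff Ω (r : K)).mp r.2
  rw [mem_adjoin_simple_iff]
  refine ⟨p.map (algebraMap Ω F), q.map (algebraMap Ω F), ?_⟩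
  rw [aeval_map_algebraMap, aeval_map_algebraMap, aeval_algebraMap_apply, aeval_algebraMap_apply,
    h, map_div₀]

include ht₀ in
/-- The residue of an integral element of `F(t)` lies in `Ω(t)`. -/
theorem exists_value_adjoin {a : L} (ha : a ∈ F⟮(tL : L)⟯) (haW : a ∈ (gauss (K := K) B).ring) :
    ∃ r : Ω⟮t₀⟯, (gauss B).HasValue a (r : K) := by
  rcases eq_or_ne a 0 with rfl | ha0
  · exact ⟨0, (gauss (K := K) (L := L) B).hasValue_zero⟩
  obtain ⟨p, q, h⟩ := (mem_adjoin_simple_iff F a).mp ha
  have hp : p ≠ 0 := by rintro rfl; simp [h] at ha0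
  have hq : q ≠ 0 := by rintro rfl; simp [h] at ha0
  obtain ⟨c, hc, p', rfl, hp'⟩ := exists_normalised B hp
  obtain ⟨d, hd, q', rfl, hq'⟩ := exists_normalised B hq
  have hvp := gauss_hasValue_aeval (L := L) B t₀ p'
  have hvq := gauss_hasValue_aeval (L := L) B t₀ q'
  have hp0 := aeval_ne_zero_of_transcendental ht₀ hp'
  have hq0 := aeval_ne_zero_of_transcendental ht₀ hq'
  have hu := hvp.mul (hvq.inv hq0)
  have heq : a = algebraMap F L (c / d) *
      (aeval (tL : L) (p'.map B.ring.subtype) * (aeval (tL : L) (q'.map B.ring.subtype))⁻¹) := by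
    rw [h, map_mul, map_mul, aeval_C, aeval_C, map_div₀]
    ring
  have hcd : c / d ∈ B.ring := mem_of_algebraMap_mem_gauss (K := K) (L := L) B (by
    have := mul_mem haW (hu.inv (mul_ne_zero hp0 (inv_ne_zero hq0))).mem
    rwa [heq, mul_assoc, mul_inv_cancel₀ (hu.ne_zero (mul_ne_zero hp0 (inv_ne_zero hq0))),
      mul_one] at this)
  obtain ⟨e, he⟩ := B.exists_hasValue hcd
  refine ⟨⟨algebraMap Ω K e * (aeval t₀ (p'.map B.red) * (aeval t₀ (q'.map B.red))⁻¹), ?_⟩,
    heq ▸ (gauss_hasValue_algebraMap B he).mul hu⟩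
  rw [← div_eq_mul_inv]
  exact mul_mem (IntermediateField.algebraMap_mem _ e)
    ((mem_adjoin_simple_iff Ω _).mpr ⟨_, _, rfl⟩)

variable {ι : Type*} [Fintype ι] (b : Module.Basis ι Ω⟮t₀⟯ K)

include ht₀ in
theorem exists_dominant (a : ι → F⟮(tL : L)⟯) {j : ι} (hj : a j ≠ 0) :
    ∃ m, a m ≠ 0 ∧ (∀ i, (a i : L) / a m ∈ (gauss (K := K) B).ring) ∧
      ∃ g : K, g ≠ 0 ∧ (gauss B).HasValue ((∑ i, (a i : L) * algebraMap K L (b i)) / a m) g := by
  obtain ⟨m, -, hm0, hdiv⟩ := exists_max_ne_zero (gauss (K := K) (L := L) B) Finset.univ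
    (fun i => (a i : L)) (Finset.mem_univ j) (by simpa using hj)
  have hW : ∀ i, (a i : L) / a m ∈ (gauss (K := K) B).ring := fun i => hdiv i (Finset.mem_univ i)
  refine ⟨m, by simpa using hm0, hW, ?_⟩
  choose r hr using fun i =>
    exists_value_adjoin B ht₀ (div_mem (a i).2 (a m).2) (hW i)
  refine ⟨∑ i, (r i : K) * b i, fun h0 => ?_, ?_⟩
  · have := Fintype.linearIndependent_iff.mp b.linearIndependent r
      (by simpa [IntermediateField.smul_def] using h0) m
    have h1 := hr m
    rw [this, div_self hm0] at h1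
    exact one_ne_zero ((gauss (K := K) (L := L) B).hasValue_one.unique h1)
  · rw [Finset.sum_div]
    refine RatVal.HasValue.sum _ fun i _ => ?_
    rw [mul_div_right_comm]
    exact (hr i).mul ((gauss B).hasValue_algebraMap (b i))

include ht₀ B in
/-- A basis of `K` over `Ω(t₀)` stays independent over `F(t)`. -/
theorem linearIndependent_basis :
    LinearIndependent F⟮(tL : L)⟯ fun i => algebraMap K L (b i) := by
  rw [Fintype.linearIndependent_iff]
  intro a ha
  by_contra! h
  obtain ⟨j, hj⟩ := h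
  obtain ⟨m, -, -, g, hg, hv⟩ := exists_dominant B ht₀ b a hj
  rw [show ∑ i, (a i : L) * algebraMap K L (b i) = 0 by
    simpa [IntermediateField.smul_def] using ha, zero_div] at hv
  exact hv.ne_zero hg rfl

variable (F L) in
/-- A basis of `K` over `Ω(t₀)` spans `L` over `F(t)`. -/
theorem span_basis_eq_top :
    Submodule.span F⟮(tL : L)⟯ (Set.range fun i => algebraMap K L (b i)) = ⊤ := by
  classical
  set S := Submodule.span F⟮(tL : L)⟯ (Set.range fun i => algebraMap K L (b i))
  have hle : Subalgebra.toSubmodule (Algebra.adjoin F⟮(tL : L)⟯ (Set.range (algebraMap K L)))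
      ≤ S := by
    rw [adjoin_range_toSubmodule, Submodule.span_le]
    rintro _ ⟨k, rfl⟩
    rw [← b.sum_repr k, map_sum]
    refine sum_mem fun i _ => ?_
    rw [IntermediateField.smul_def, smul_eq_mul, map_mul]
    exact S.smul_mem ⟨_, algebraMap_mem_adjoin F (b.repr k i)⟩ (Submodule.subset_span ⟨i, rfl⟩)
  set A := Algebra.adjoin F⟮(tL : L)⟯ (Set.range (algebraMap K L))
  have hfg : Subalgebra.toSubmodule A |>.FG :=
    Submodule.FG.of_le (Submodule.fg_span (Set.finite_range _)) hle
  rw [eq_top_iff]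
  rintro f -
  obtain ⟨r, hr, s, hs, rfl⟩ := exists_eq_div Ω (K := K) (F := F) f
  have hmem : ∀ z ∈ Submodule.span F (Set.range (algebraMap K L)), z ∈ A := by
    intro z hz
    induction hz using Submodule.span_induction with
    | mem z hz => exact Algebra.subset_adjoin hz
    | zero => exact zero_mem A
    | add z w _ _ hz hw => exact add_mem hz hw
    | smul c z _ hz =>
      rw [Algebra.smul_def, show algebraMap F L c =
        algebraMap F⟮(tL : L)⟯ L (algebraMap F F⟮(tL : L)⟯ c) from rfl]
      exact mul_mem (A.algebraMap_mem _) hz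
  refine hle (show r / s ∈ A from ?_)
  rw [div_eq_mul_inv]
  refine mul_mem (hmem r hr) ?_
  exact A.inv_mem_of_algebraic (x := ⟨s, hmem s hs⟩)
    ((IsIntegral.of_mem_of_fg A hfg s (hmem s hs)).isAlgebraic)

include B in
/-- The extension of scalars is a function field. -/
theorem isFunctionField [IsFunctionField Ω K] : IsFunctionField F L := by
  obtain ⟨t₀, ht₀⟩ := IsFunctionField.exists_transcendental (K := Ω) (F := K)
  have := IsFunctionField.finiteDimensional_adjoin t₀ ht₀
  let b := Module.finBasis Ω⟮t₀⟯ K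
  have : Module.Finite F⟮(algebraMap K L t₀ : L)⟯ L :=
    ⟨span_basis_eq_top F L b ▸ Submodule.fg_span (Set.finite_range _)⟩
  exact isFunctionField_of_finiteDimensional (transcendental_algebraMap B ht₀)

include ht₀ in
/-- The norm to `F(t)` of a Gauss-integral element reduces to the norm of its residue. -/
theorem norm_hasValue [IsFunctionField Ω K] {f : L} {g : K} (hfg : (gauss B).HasValue f g) :
    (gauss B).HasValue ((Algebra.norm F⟮(tL : L)⟯ f : F⟮(tL : L)⟯) : L)
      ((Algebra.norm Ω⟮t₀⟯ g : Ω⟮t₀⟯) : K) := by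
  classical
  have := IsFunctionField.finiteDimensional_adjoin t₀ ht₀
  let b := Module.finBasis Ω⟮t₀⟯ K
  let bL := Module.Basis.mk (linearIndependent_basis B ht₀ b) (span_basis_eq_top F L b).ge
  set M := Algebra.leftMulMatrix bL f with hM
  have hsum : ∀ j, ∑ i, (M i j : L) * algebraMap K L (b i) = f * algebraMap K L (b j) := by
    intro j
    have hbL : ∀ i, bL i = algebraMap K L (b i) := fun i => by simp [bL]
    have h := bL.sum_repr (f * bL j)
    have h2 : ∑ i, M i j • bL i = f * bL j := by
      rw [hM]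
      simpa only [Algebra.leftMulMatrix_eq_repr_mul] using h
    simpa [IntermediateField.smul_def, hbL] using h2
  have hW : ∀ i j, (M i j : L) ∈ (gauss (K := K) B).ring := by
    intro i j
    rcases eq_or_ne (M i j) 0 with h | h
    · rw [h]; exact zero_mem _
    obtain ⟨m, hm0, hdiv, g', hg', hv⟩ := exists_dominant B ht₀ b (fun i => M i j) h
    simp only [hsum] at hv
    have hmW : (M m j : L) ∈ (gauss (K := K) B).ring := by
      by_contra hn
      refine hg' (hv.unique ?_)
      rw [div_eq_mul_inv]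
      simpa using (hfg.mul ((gauss B).hasValue_algebraMap (b j))).mul
        (RatVal.hasValue_inv_zero hn)
    have := mul_mem (hdiv i) hmW
    rwa [div_mul_cancel₀ _ (by simpa using hm0)] at this
  choose r hr using fun i j => exists_value_adjoin B ht₀ (M i j).2 (hW i j)
  have hrM : Algebra.leftMulMatrix b g = Matrix.of r := by
    ext i j
    have h1 : (gauss B).HasValue (f * algebraMap K L (b j)) (∑ i, (r i j : K) * b i) :=
      hsum j ▸ RatVal.HasValue.sum _ fun i _ => (hr i j).mul ((gauss B).hasValue_algebraMap _)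
    have h2 := h1.unique (hfg.mul ((gauss B).hasValue_algebraMap (b j)))
    rw [Algebra.leftMulMatrix_eq_repr_mul, ← h2]
    have : ∑ i, (r i j : K) * b i = ∑ i, r i j • b i := by simp [IntermediateField.smul_def]
    rw [this, b.repr_sum_self]
    rfl
  rw [Algebra.norm_eq_matrix_det bL, ← hM, Algebra.norm_eq_matrix_det b, hrM]
  let M' : Matrix _ _ (gauss (K := K) (L := L) B).ring := Matrix.of fun i j => ⟨_, hW i j⟩
  have e1 : (M.det : L) = ((M'.det : (gauss (K := K) (L := L) B).ring) : L) := by
    rw [show ((M'.det : (gauss (K := K) (L := L) B).ring) : L) =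
      (gauss (K := K) (L := L) B).ring.subtype M'.det from rfl, RingHom.map_det]
    exact RingHom.map_det (algebraMap F⟮(tL : L)⟯ L) M
  have e2 : (((Matrix.of r).det : Ω⟮t₀⟯) : K) = (gauss (L := L) B).red M'.det := by
    rw [RingHom.map_det]
    refine (RingHom.map_det (algebraMap Ω⟮t₀⟯ K) _).trans (congrArg Matrix.det ?_)
    ext i j
    exact (hr i j).unique ⟨hW i j, rfl⟩
  rw [e1, e2]
  exact ⟨M'.det.2, rfl⟩

end

end Fermat.Agent.ConstReduction
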