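import Fermat.Agent.FunctionField.RiemannRoch
import Mathlib.RingTheory.Norm.Transitivity

/-!
# The order of a norm to a rational function field

The order of the norm to `K(x)` of a function at `x = c` is the sum of the orders of the function
at the zeros of `x - c` (algebraically closed constant field, any characteristic).
-/

set_option autoImplicit false

noncomputable section

open IntermediateField AlgebraicCurve Polynomial
open Fermat.Agent.FunctionField

namespace Fermat.Agent.ConstReduction

variable {K L : Type*} [Field K] [Field L] [Algebra K L]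

/-- Translates of a transcendental element are transcendental. -/
theorem transcendental_sub_const {x : L} (hx : Transcendental K x) (c : K) :
    Transcendental K (x - algebraMap K L c) := fun h =>
  hx (by simpa using h.add (isAlgebraic_algebraMap (R := K) (A := L) c))

theorem adjoin_sub_const (x : L) (c : K) : K⟮x - algebraMap K L c⟯ = K⟮x⟯ := by
  refine le_antisymm ?_ ?_ <;> rw [adjoin_simple_le_iff]
  · exact sub_mem (mem_adjoin_simple_self K x) (IntermediateField.algebraMap_mem _ c)
  · simpa using add_mem (mem_adjoin_simple_self K (x - algebraMap K L c))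
      (IntermediateField.algebraMap_mem K⟮x - algebraMap K L c⟯ c)

/-- An element of the ring of a place has nonnegative order. -/
theorem ord_nonneg_of_mem (v : Place K L) {f : L} (hf : f ∈ v.toValuationSubring) :
    0 ≤ v.ord f := by
  rcases eq_or_ne f 0 with rfl | h
  · simp
  · have := (mem_iff_adicValuation_le_one v).mp hf
    rw [v.adicValuation_eq_exp_neg_ord h, ← WithZero.exp_zero, WithZero.exp_le_exp] at this
    omega

/-- At a zero of `x - c`, the order of `p(x)` is the multiplicity of `c` times that of `x - c`. -/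
theorem ord_aeval (v : Place K L) {x : L} {c : K} (hv : 0 < v.ord (x - algebraMap K L c))
    {p : K[X]} (hp : p ≠ 0) :
    v.ord (aeval x p) = p.rootMultiplicity c * v.ord (x - algebraMap K L c) := by
  obtain ⟨q, hq, hndvd⟩ := exists_eq_pow_rootMultiplicity_mul_and_not_dvd p hp c
  rw [dvd_iff_isRoot, IsRoot.def] at hndvd
  set t := x - algebraMap K L c with ht
  have htv : t ∈ v.toValuationSubring := (mem_iff_adicValuation_le_one v).mpr
    ((adicValuation_lt_one_iff v).mpr (Or.inr hv)).le
  obtain ⟨r, hr⟩ := dvd_iff_isRoot.mpr (show (q - C (q.eval c)).IsRoot c by simp)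
  have hx : x ∈ v.toValuationSubring := by
    simpa [ht] using add_mem htv (v.algebraMap_mem' c)
  have hrx : aeval x r ∈ v.toValuationSubring := by
    clear hr
    induction r using Polynomial.induction_on' with
    | add a b ha hb => simpa using add_mem (ha) (hb)
    | monomial n a => simpa using mul_mem (v.algebraMap_mem' a) (pow_mem hx n)
  have hqx : aeval x q = algebraMap K L (q.eval c) + t * aeval x r := by
    have := congrArg (aeval x) hr
    simp only [map_sub, map_mul, aeval_C, aeval_X] at this
    rw [ht]; linear_combination this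
  have hval : v.adicValuation (aeval x q) = 1 := by
    have h1 := adicValuation_algebraMap v hndvd
    have h2 : v.adicValuation (t * aeval x r) < 1 := by
      rw [map_mul]
      exact mul_lt_one_of_lt_of_le ((adicValuation_lt_one_iff v).mpr (Or.inr hv))
        ((mem_iff_adicValuation_le_one v).mp hrx)
    rw [hqx, Valuation.map_add_eq_of_lt_left _ (by rwa [h1]), h1]
  have hq0 : aeval x q ≠ 0 := fun h => by simp [h] at hval
  have ht0 : t ≠ 0 := fun h => by simp [h] at hv
  conv_lhs => rw [hq]
  rw [map_mul, map_pow, map_sub, aeval_X, aeval_C, ← ht, v.ord_mul (pow_ne_zero _ ht0) hq0,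
    ord_pow]
  have : v.ord (aeval x q) = 0 := by simp [Place.ord, hval]
  rw [this, add_zero]

/-- A nonzero polynomial does not vanish at a transcendental element. -/
theorem aeval_ne_zero_of_transcendental {x : L} (hx : Transcendental K x) {p : K[X]} (hp : p ≠ 0) :
    aeval x p ≠ 0 := fun h => hp ((transcendental_iff.mp hx) p h)

theorem exists_ord_eq_mul {x : L} (hx : Transcendental K x) (c : K) {a : K⟮x⟯} (ha : a ≠ 0) :
    ∃ m : ℤ, ∀ v : Place K L, 0 < v.ord (x - algebraMap K L c) →
      v.ord (a : L) = m * v.ord (x - algebraMap K L c) := by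
  obtain ⟨p, q, hpq⟩ := (mem_adjoin_simple_iff K (a : L)).mp a.2
  have ha' : (a : L) ≠ 0 := by simpa using ha
  have hp : p ≠ 0 := by rintro rfl; simp [hpq] at ha'
  have hq : q ≠ 0 := by rintro rfl; simp [hpq] at ha'
  refine ⟨(p.rootMultiplicity c : ℤ) - q.rootMultiplicity c, fun v hv => ?_⟩
  rw [hpq, div_eq_mul_inv, v.ord_mul (aeval_ne_zero_of_transcendental hx hp)
    (inv_ne_zero (aeval_ne_zero_of_transcendental hx hq)), v.ord_inv, ord_aeval v hv hp,
    ord_aeval v hv hq]
  ring

section

variable [IsFunctionField K L] {x : L} (hx : Transcendental K x) (c : K)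

/-- The zeros of `x - c`. -/
def zerosAt : Finset (Place K L) := (finite_ord_pos (K := K) (x - algebraMap K L c)).toFinset

omit hx

/-- `zerosAt c` is the set of places where `x - c` has a zero. -/
theorem mem_zerosAt {v : Place K L} :
    v ∈ zerosAt (x := x) c ↔ 0 < v.ord (x - algebraMap K L c) := Set.Finite.mem_toFinset _

variable {c}

include hx

theorem isIntegral_comap {w : Place K L} (hw : 0 < w.ord (x - algebraMap K L c)) {f : L}
    (hf : ∀ v ∈ zerosAt (x := x) c, f ∈ v.toValuationSubring) :
    IsIntegral (w.toValuationSubring.comap (algebraMap K⟮x⟯ L)) f := by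
  classical
  set B := w.toValuationSubring.comap (algebraMap K⟮x⟯ L)
  set t := x - algebraMap K L c with ht
  have := IsFunctionField.finiteDimensional_adjoin x hx
  by_contra hni
  let R := integralClosure B L
  have : IsIntegrallyClosedIn R.toSubring L :=
    inferInstanceAs (IsIntegrallyClosedIn (integralClosure B L) L)
  obtain ⟨V, hV, hfV⟩ := Subring.exists_le_valuationSubring_of_isIntegrallyClosedIn
    (R := R.toSubring) (x := f) hni
  have hB : ∀ a : K⟮x⟯, (a : L) ∈ w.toValuationSubring → (a : L) ∈ V := fun a h =>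
    hV (R.algebraMap_mem ⟨a, h⟩)
  have hK : ∀ a : K, algebraMap K L a ∈ V := fun a =>
    hB ⟨_, IntermediateField.algebraMap_mem K⟮x⟯ a⟩ (w.algebraMap_mem' a)
  have hVtop : V ≠ ⊤ := by rintro rfl; exact hfV (ValuationSubring.mem_top f)
  let v := placeOfValuationSubring V hK hVtop
  have htx : t ∈ K⟮x⟯ := sub_mem (mem_adjoin_simple_self K x) (IntermediateField.algebraMap_mem _ c)
  have htw : t ∈ w.toValuationSubring := (mem_iff_adicValuation_le_one w).mpr
    ((adicValuation_lt_one_iff w).mpr (Or.inr hw)).le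
  have htv : 0 ≤ v.ord t := ord_nonneg_of_mem v (hB ⟨t, htx⟩ htw)
  rcases htv.lt_or_eq with hpos | hz
  · exact hfV (hf v ((mem_zerosAt c).mpr hpos))
  have hall : ∀ a : K⟮x⟯, (a : L) ∈ V := by
    intro a
    rcases eq_or_ne a 0 with rfl | ha
    · exact zero_mem V
    obtain ⟨m, hm⟩ := exists_ord_eq_mul hx c ha
    have ht0 : t ≠ 0 := fun h => by simp [h] at hw
    have hmem : (a : L) * t ^ (-m) ∈ w.toValuationSubring := by
      rw [mem_iff_adicValuation_le_one, w.adicValuation_eq_exp_neg_ord
        (mul_ne_zero (by simpa using ha) (zpow_ne_zero _ ht0)),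
        w.ord_mul (by simpa using ha) (zpow_ne_zero _ ht0), w.ord_zpow, hm w hw, ← ht,
        ← WithZero.exp_zero, WithZero.exp_le_exp]
      simp
    have hcast : ((a * ⟨t, htx⟩ ^ (-m) : K⟮x⟯) : L) = (a : L) * t ^ (-m) := by push_cast; rfl
    have h1 := hB (a * ⟨t, htx⟩ ^ (-m)) (hcast.symm ▸ hmem)
    rw [hcast] at h1
    have hval : v.adicValuation (t ^ m) ≤ 1 := by
      rw [v.adicValuation_eq_exp_neg_ord (zpow_ne_zero _ ht0), v.ord_zpow, ← hz]
      simp
    have h2 : t ^ m ∈ V := (mem_iff_adicValuation_le_one v).mpr hval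
    have := mul_mem h1 h2
    rwa [mul_assoc, ← zpow_add₀ ht0, neg_add_cancel, zpow_zero, mul_one] at this
  exact hfV (mem_valuationSubring_of_isAlgebraic (K := K⟮x⟯) V hall
    (Algebra.IsAlgebraic.isAlgebraic f))

theorem norm_mem {w : Place K L} (hw : 0 < w.ord (x - algebraMap K L c)) {f : L}
    (hf : ∀ v ∈ zerosAt (x := x) c, f ∈ v.toValuationSubring) :
    (Algebra.norm K⟮x⟯ f : L) ∈ w.toValuationSubring := by
  have h := Algebra.isIntegral_norm (R := w.toValuationSubring.comap (algebraMap K⟮x⟯ L)) K⟮x⟯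
    (isIntegral_comap hx hw hf)
  obtain ⟨y, hy⟩ := IsIntegrallyClosed.isIntegral_iff.mp h
  rw [← hy]
  exact y.2

theorem ord_norm_pos {w : Place K L} (hw : 0 < w.ord (x - algebraMap K L c)) {f : L} (hf0 : f ≠ 0)
    (hf : ∀ v ∈ zerosAt (x := x) c, f ∈ v.toValuationSubring) {u : Place K L}
    (hu : u ∈ zerosAt (x := x) c) (hfu : 0 < u.ord f) :
    0 < w.ord (Algebra.norm K⟮x⟯ f : L) := by
  have := IsFunctionField.finiteDimensional_adjoin x hx
  refine (ord_nonneg_of_mem w (norm_mem hx hw hf)).lt_of_ne fun hzero => ?_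
  set B := w.toValuationSubring.comap (algebraMap K⟮x⟯ L)
  have hint := isIntegral_comap hx hw hf
  have hmin : minpoly K⟮x⟯ f = (minpoly B f).map (algebraMap B K⟮x⟯) :=
    minpoly.isIntegrallyClosed_eq_field_fractions' K⟮x⟯ hint
  have hnorm : (Algebra.norm K⟮x⟯ f) = ((-1) ^ (minpoly K⟮x⟯ f).natDegree *
      (minpoly K⟮x⟯ f).coeff 0) ^ Module.finrank K⟮x⟯⟮f⟯ L := by
    have h := Algebra.PowerBasis.norm_gen_eq_coeff_zero_minpoly
      (IntermediateField.adjoin.powerBasis (K := K⟮x⟯) (Algebra.IsIntegral.isIntegral f))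
    simp only [IntermediateField.adjoin.powerBasis_gen, IntermediateField.adjoin.powerBasis_dim,
      IntermediateField.minpoly_gen] at h
    rw [Algebra.norm_eq_norm_adjoin K⟮x⟯ f, h]
  set a₀ := (minpoly K⟮x⟯ f).coeff 0 with ha₀
  have ha0 : a₀ ≠ 0 := minpoly.coeff_zero_ne_zero (Algebra.IsIntegral.isIntegral f) hf0
  obtain ⟨m, hm⟩ := exists_ord_eq_mul hx c ha0
  have hr : 0 < Module.finrank K⟮x⟯⟮f⟯ L := Module.finrank_pos
  have hm0 : m = 0 := by
    have h1 : w.ord (Algebra.norm K⟮x⟯ f : L) =
        Module.finrank K⟮x⟯⟮f⟯ L * w.ord (a₀ : L) := by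
      rw [hnorm]
      push_cast
      rw [ord_pow, w.ord_mul (pow_ne_zero _ (neg_ne_zero.mpr one_ne_zero)) (by simpa using ha0),
        ord_pow]
      have : w.ord (-1 : L) = 0 := by simpa using ord_algebraMap w (-1 : K)
      rw [this]; ring
    rw [← hzero, hm w hw, eq_comm, mul_eq_zero, mul_eq_zero] at h1
    rcases h1 with h1 | h1 | h1 <;> omega
  have hu' := (mem_zerosAt c).mp hu
  have hua : u.ord (a₀ : L) = 0 := by rw [hm u hu', hm0, zero_mul]
  have hcoef : ∀ i, ((minpoly K⟮x⟯ f).coeff i : L) ∈ u.toValuationSubring := by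
    intro i
    rw [hmin, coeff_map]
    rcases eq_or_ne ((algebraMap B K⟮x⟯ ((minpoly B f).coeff i)) : L) 0 with h0 | h0
    · rw [h0]; exact zero_mem _
    obtain ⟨k, hk⟩ := exists_ord_eq_mul hx c
      (a := algebraMap B K⟮x⟯ ((minpoly B f).coeff i)) (by simpa using h0)
    have h1 : 0 ≤ k * w.ord (x - algebraMap K L c) :=
      hk w hw ▸ ord_nonneg_of_mem w ((minpoly B f).coeff i).2
    rw [mem_iff_adicValuation_le_one, u.adicValuation_eq_exp_neg_ord h0, ← WithZero.exp_zero,
      WithZero.exp_le_exp, hk u hu']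
    have : 0 ≤ k := nonneg_of_mul_nonneg_left h1 hw
    have := mul_nonneg this hu'.le
    omega
  set s : L := aeval f (minpoly K⟮x⟯ f).divX with hs
  have hrel : f * s = -(a₀ : L) := by
    have := congrArg (aeval f) (X_mul_divX_add (minpoly K⟮x⟯ f))
    rw [map_add, map_mul, aeval_X, aeval_C, minpoly.aeval] at this
    have h' : f * s + (a₀ : L) = 0 := this
    linear_combination h'
  have hsu : s ∈ u.toValuationSubring := by
    rw [hs, aeval_eq_sum_range]
    refine sum_mem fun i _ => ?_
    rw [coeff_divX, Algebra.smul_def]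
    exact mul_mem (hcoef _) (pow_mem (hf u hu) i)
  have hs0 : s ≠ 0 := fun h => by
    rw [h, mul_zero, eq_comm, neg_eq_zero] at hrel; exact ha0 (by simpa using hrel)
  have h2 : u.ord (f * s) = 0 := by
    rw [hrel, show -(a₀ : L) = algebraMap K L (-1) * a₀ by simp,
      u.ord_mul (by simp) (by simpa using ha0), hua, ord_algebraMap, add_zero]
  rw [u.ord_mul hf0 hs0] at h2
  have := ord_nonneg_of_mem u hsu
  omega

variable [IsAlgClosed K]

/-- The order of the norm is the sum of the orders over the fibre. -/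
theorem ord_norm {w : Place K L} (hw : 0 < w.ord (x - algebraMap K L c)) {f : L} (hf : f ≠ 0) :
    w.ord (Algebra.norm K⟮x⟯ f : L) =
      w.ord (x - algebraMap K L c) * ∑ v ∈ zerosAt (x := x) c, v.ord f := by
  classical
  have := IsFunctionField.finiteDimensional_adjoin x hx
  set t := x - algebraMap K L c with ht
  set S := zerosAt (x := x) c with hS
  set φ : L → ℤ := fun f => w.ord (Algebra.norm K⟮x⟯ f : L) with hφ
  have hN0 : ∀ g : L, g ≠ 0 → (Algebra.norm K⟮x⟯ g : L) ≠ 0 := fun g hg => by
    simpa using (Algebra.norm_ne_zero_iff (R := K⟮x⟯)).mpr hg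
  have φmul : ∀ g h : L, g ≠ 0 → h ≠ 0 → φ (g * h) = φ g + φ h := fun g h hg hh => by
    simp only [hφ, map_mul, MulMemClass.coe_mul]
    rw [w.ord_mul (hN0 g hg) (hN0 h hh)]
  have φone : φ 1 = 0 := by simp [hφ]
  have φzero : ∀ g : L, g ≠ 0 → (∀ v ∈ S, v.ord g = 0) → φ g = 0 := by
    intro g hg hv
    have hmem : ∀ g : L, g ≠ 0 → (∀ v ∈ S, v.ord g = 0) → 0 ≤ φ g := fun g hg hv =>
      ord_nonneg_of_mem w (norm_mem hx hw fun v hvS => (mem_iff_adicValuation_le_one v).mpr (by
        rw [v.adicValuation_eq_exp_neg_ord hg, hv v hvS]; simp))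
    have h1 := hmem g hg hv
    have h2 := hmem g⁻¹ (inv_ne_zero hg) fun v hvS => by rw [v.ord_inv, hv v hvS, neg_zero]
    have h3 := φmul g g⁻¹ hg (inv_ne_zero hg)
    rw [mul_inv_cancel₀ hg, φone] at h3
    omega
  -- local parameters
  have hpar : ∀ u ∈ S, ∃ π : L, π ≠ 0 ∧ ∀ v ∈ S, v.ord π = if v = u then 1 else 0 := by
    intro u hu
    choose a ha0 ha using fun v : Place K L => exists_ord_eq v (if v = u then (1 : ℤ) else 0)
    obtain ⟨z, hz⟩ := approximation S a (fun v => -(v.ord (a v)) - 1)
    have hzv : ∀ v ∈ S, v.adicValuation z = v.adicValuation (a v) := fun v hv => by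
      have h := hz v hv
      have hlt : v.adicValuation (z - a v) < v.adicValuation (a v) := by
        rw [v.adicValuation_eq_exp_neg_ord (ha0 v)]
        exact h.trans_lt (WithZero.exp_lt_exp.mpr (by omega))
      simpa using Valuation.map_add_eq_of_lt_left _ hlt
    refine ⟨z, fun h0 => ?_, fun v hv => ?_⟩
    · have := hzv u hu
      simp only [h0, map_zero] at this
      exact u.adicValuation_ne_zero (ha0 u) this.symm
    · rw [← ha v, Place.ord, Place.ord, hzv v hv]
  choose! π hπ0 hπ using hpar
  have hdecomp : ∀ g : L, g ≠ 0 → φ g = ∑ u ∈ S, u.ord g * φ (π u) := by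
    intro g hg
    have key : ∀ T ⊆ S, ∀ g : L, g ≠ 0 → (∀ v ∈ S, v ∉ T → v.ord g = 0) →
        φ g = ∑ u ∈ T, u.ord g * φ (π u) := by
      intro T
      induction T using Finset.induction_on with
      | empty => intro _ g hg h; simpa using φzero g hg fun v hv => h v hv (by simp)
      | @insert u T huT ih =>
        intro hTS g hg h
        have huS := hTS (Finset.mem_insert_self u T)
        have hφz : ∀ k : ℤ, φ (π u ^ k) = k * φ (π u) := fun k => by
          simp only [hφ]
          have : Algebra.norm K⟮x⟯ (π u ^ k) = Algebra.norm K⟮x⟯ (π u) ^ k := by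
            obtain ⟨n, rfl | rfl⟩ := Int.eq_nat_or_neg k
            · simp
            · rw [zpow_neg, zpow_neg, zpow_natCast, zpow_natCast, ← map_pow]
              exact eq_inv_of_mul_eq_one_left (by
                rw [← map_mul, inv_mul_cancel₀ (pow_ne_zero _ (hπ0 u huS)), map_one])
          rw [this, show ((Algebra.norm K⟮x⟯ (π u) ^ k : K⟮x⟯) : L) =
            (Algebra.norm K⟮x⟯ (π u) : L) ^ k from map_zpow₀ (algebraMap K⟮x⟯ L) _ k, w.ord_zpow]
        have hg' : g * π u ^ (-u.ord g) ≠ 0 := mul_ne_zero hg (zpow_ne_zero _ (hπ0 u huS))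
        have hord : ∀ v ∈ S, v.ord (g * π u ^ (-u.ord g)) =
            v.ord g - if v = u then u.ord g else 0 := fun v hv => by
          rw [v.ord_mul hg (zpow_ne_zero _ (hπ0 u huS)), v.ord_zpow, hπ u huS v hv]
          split <;> ring
        have h1 := ih (fun v hv => hTS (Finset.mem_insert_of_mem hv)) _ hg' fun v hv hvT => by
          rw [hord v hv]
          split_ifs with hvu
          · subst hvu; ring
          · simpa using h v hv (by simp [hvu, hvT])
        rw [φmul g _ hg (zpow_ne_zero _ (hπ0 u huS)), hφz] at h1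
        rw [Finset.sum_insert huT]
        have h2 : ∑ v ∈ T, v.ord (g * π u ^ (-u.ord g)) * φ (π v) =
            ∑ v ∈ T, v.ord g * φ (π v) := Finset.sum_congr rfl fun v hv => by
          rw [hord v (hTS (Finset.mem_insert_of_mem hv)), if_neg (by rintro rfl; exact huT hv)]
          ring
        linarith
    exact key S subset_rfl g hg fun v hv h => absurd hv h
  -- each local parameter has norm of order `w.ord t`
  have ht0 : t ≠ 0 := fun h => by simp [h] at hw
  have htr : Transcendental K t := transcendental_sub_const hx c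
  have hdeg : ∑ u ∈ S, u.ord t = Module.finrank K⟮x⟯ L := by
    have h := degree_zeros (K := K) htr
    rw [degree_eq_sum _ S] at h
    · rw [show Module.finrank K⟮x⟯ L = degFun K t by rw [degFun, adjoin_sub_const], ← h]
      refine Finset.sum_congr rfl fun u hu => ?_
      have := (mem_zerosAt c).mp hu
      simp only [Finsupp.sup_apply, divFun_apply, Finsupp.zero_apply, deg_eq_one u, Nat.cast_one,
        mul_one]
      exact (max_eq_left this.le).symm
    · intro v hv
      rw [Finsupp.mem_support_iff, Finsupp.sup_apply, Finsupp.zero_apply, divFun_apply] at hv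
      exact (mem_zerosAt c).mpr (show 0 < v.ord t by omega)
  have htx : t ∈ K⟮x⟯ := sub_mem (mem_adjoin_simple_self K x) (IntermediateField.algebraMap_mem _ c)
  have hφt : φ t = Module.finrank K⟮x⟯ L * w.ord t := by
    simp only [hφ]
    rw [show t = algebraMap K⟮x⟯ L ⟨t, htx⟩ from rfl, Algebra.norm_algebraMap]
    push_cast
    rw [ord_pow]; rfl
  have hge : ∀ u ∈ S, w.ord t ≤ φ (π u) := by
    intro u hu
    obtain ⟨m, hm⟩ := exists_ord_eq_mul hx c (a := Algebra.norm K⟮x⟯ (π u))
      ((Algebra.norm_ne_zero_iff).mpr (hπ0 u hu))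
    have hpos : 0 < φ (π u) := ord_norm_pos hx hw (hπ0 u hu) (fun v hv =>
      (mem_iff_adicValuation_le_one v).mpr (by
        rw [v.adicValuation_eq_exp_neg_ord (hπ0 u hu), hπ u hu v hv, ← WithZero.exp_zero,
          WithZero.exp_le_exp]
        split <;> simp)) hu (by simp [hπ u hu u hu])
    simp only [hφ] at hpos ⊢
    rw [hm w hw] at hpos ⊢
    have : 0 < m := by nlinarith
    nlinarith
  have hsum : ∑ u ∈ S, u.ord t * (φ (π u) - w.ord t) = 0 := by
    simp only [mul_sub, Finset.sum_sub_distrib, ← Finset.sum_mul, hdeg, ← hdecomp t ht0, hφt]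
    ring
  have heq : ∀ u ∈ S, φ (π u) = w.ord t := fun u hu => by
    have := (Finset.sum_eq_zero_iff_of_nonneg fun v hv => mul_nonneg
      ((mem_zerosAt c).mp hv).le (by linarith [hge v hv])).mp hsum u hu
    rcases mul_eq_zero.mp this with h | h
    · exact absurd h ((mem_zerosAt c).mp hu).ne'
    · linarith
  show φ f = _
  rw [hdecomp f hf, Finset.mul_sum]
  exact Finset.sum_congr rfl fun u hu => by rw [heq u hu]; ring

/-- The fibre sum read off from a presentation of the norm as a rational function. -/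
theorem sum_ord_eq_rootMultiplicity {f : L} (hf : f ≠ 0) {p q : K[X]} (hp : p ≠ 0) (hq : q ≠ 0)
    (h : (Algebra.norm K⟮x⟯ f : L) = aeval x p / aeval x q) :
    ∑ v ∈ zerosAt (x := x) c, v.ord f = (p.rootMultiplicity c : ℤ) - q.rootMultiplicity c := by
  obtain ⟨w, hw⟩ := exists_place_ord_pos (transcendental_sub_const hx c)
  have h1 := ord_norm hx hw hf
  rw [h, div_eq_mul_inv, w.ord_mul (aeval_ne_zero_of_transcendental hx hp)
    (inv_ne_zero (aeval_ne_zero_of_transcendental hx hq)), w.ord_inv, ord_aeval w hw hp,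
    ord_aeval w hw hq] at h1
  exact mul_left_cancel₀ hw.ne' (by linarith)

end

end Fermat.Agent.ConstReduction
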